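import Mathlib

/-!
# S14 / ART (helper10): functoriality of Frobenius elements

Element-level statements about Mathlib's `IsArithFrobAt` for Galois extensions of number fields:

* `h10_eq_of_forall_sub_mem` : uniqueness of an element of the Galois group with prescribed
  action modulo a prime with trivial inertia group;
* `h10_isArithFrobAt_restrict` **(Res)** : the restriction of a Frobenius at `Q` to an
  intermediate Galois extension `F` is a Frobenius at `Q ∩ 𝓞 F`;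
* `h10_pow_smul_sub_mem` : `σ ^ n • x ≡ x ^ (q ^ n)` modulo `Q`;
* `h10_baseChange_apply`, `h10_baseChange_eq_pow` **(BC)** : base change;
* `h10_isArithFrobAt_conj` **(E)** : conjugation by an element of a bigger Galois group.
-/

set_option autoImplicit false
set_option linter.unusedSectionVars false

open NumberField Pointwise

namespace Fermat.Agent.S14x.Art.H10

/-- The inertia group of `Q` in `Gal(L/K)` is trivial, in elementwise form. -/
def TrivInertia (K : Type*) {L : Type*} [Field K] [NumberField K] [Field L] [NumberField L]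
    [Algebra K L] (Q : Ideal (𝓞 L)) : Prop :=
  ∀ g : Gal(L/K), (∀ x : 𝓞 L, g • x - x ∈ Q) → g = 1

section Unique

variable {K L : Type*} [Field K] [NumberField K] [Field L] [NumberField L] [Algebra K L]

theorem trivInertia_iff_inertia_eq_bot (Q : Ideal (𝓞 L)) :
    TrivInertia K Q ↔ Q.inertia Gal(L/K) = ⊥ := by
  rw [Subgroup.eq_bot_iff_forall]
  rfl

/-- If the inertia group of `Q` is trivial, an element of the Galois group is determined by its
action modulo `Q`. -/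
theorem h10_eq_of_forall_sub_mem {Q : Ideal (𝓞 L)} (hQ : TrivInertia K Q) {σ τ : Gal(L/K)}
    (h : ∀ x : 𝓞 L, σ • x - τ • x ∈ Q) : σ = τ := by
  have h1 : σ * τ⁻¹ = 1 := by
    apply hQ
    intro y
    have := h (τ⁻¹ • y)
    rwa [smul_inv_smul, ← mul_smul] at this
  exact mul_inv_eq_one.mp h1

end Unique

section Pow

variable {K L : Type*} [Field K] [NumberField K] [Field L] [NumberField L] [Algebra K L]
  [IsGalois K L]

/-- A Frobenius at `Q` maps `Q` into itself. -/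
theorem h10_smul_mem_of_mem {Q : Ideal (𝓞 L)} [Q.IsPrime] {σ : Gal(L/K)}
    (hσ : IsArithFrobAt (𝓞 K) σ Q) {x : 𝓞 L} (hx : x ∈ Q) : σ • x ∈ Q := by
  have h1 := hσ x
  have hpos : 0 < Nat.card (𝓞 K ⧸ Q.under (𝓞 K)) := hσ.card_pos
  have h2 : x ^ Nat.card (𝓞 K ⧸ Q.under (𝓞 K)) ∈ Q := Q.pow_mem_of_mem hx _ hpos
  have h3 : σ • x = (σ • x - x ^ Nat.card (𝓞 K ⧸ Q.under (𝓞 K))) +
      x ^ Nat.card (𝓞 K ⧸ Q.under (𝓞 K)) := by ring
  rw [h3]
  exact Q.add_mem h1 h2

/-- `σ ^ n • x ≡ x ^ (q ^ n)` modulo `Q` for a Frobenius `σ` at `Q`. -/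
theorem h10_pow_smul_sub_mem {Q : Ideal (𝓞 L)} [Q.IsPrime] {σ : Gal(L/K)}
    (hσ : IsArithFrobAt (𝓞 K) σ Q) (n : ℕ) (x : 𝓞 L) :
    (σ ^ n) • x - x ^ (Nat.card (𝓞 K ⧸ Q.under (𝓞 K)) ^ n) ∈ Q := by
  induction n generalizing x with
  | zero => simp
  | succ n ih =>
    set q := Nat.card (𝓞 K ⧸ Q.under (𝓞 K)) with hq
    have h1 : (σ ^ (n + 1)) • x - x ^ (q ^ (n + 1)) =
        σ • ((σ ^ n) • x - x ^ (q ^ n)) + (σ • (x ^ (q ^ n)) - (x ^ (q ^ n)) ^ q) := by
      rw [pow_succ' σ n, mul_smul, smul_sub, ← pow_mul, ← pow_succ]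
      ring
    rw [h1]
    exact Q.add_mem (h10_smul_mem_of_mem hσ (ih x)) (hσ (x ^ (q ^ n)))

end Pow

section Restrict

/-- Restriction to `F` commutes with the inclusion `𝓞 F → 𝓞 L`. -/
theorem h10_algebraMap_restrict_smul {K F L : Type*} [Field K] [Field F] [Field L]
    [NumberField F] [NumberField L] [Algebra K F] [Algebra F L] [Algebra K L]
    [IsScalarTower K F L] [Normal K F] (σ : Gal(L/K)) (y : 𝓞 F) :
    algebraMap (𝓞 F) (𝓞 L) ((AlgEquiv.restrictNormalHom F σ) • y) =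
      σ • algebraMap (𝓞 F) (𝓞 L) y := by
  apply RingOfIntegers.ext
  show algebraMap F L ((AlgEquiv.restrictNormalHom F σ) (y : F)) = σ (algebraMap F L (y : F))
  exact AlgEquiv.restrictNormal_commutes σ F (y : F)

variable {K F L : Type*} [Field K] [Field F] [Field L] [NumberField K] [NumberField F]
  [NumberField L] [Algebra K F] [Algebra F L] [Algebra K L] [IsScalarTower K F L]
  [IsGalois K L] [IsGalois K F]

/-- **(Res)** The restriction to `F` of a Frobenius at `Q` is a Frobenius at `Q ∩ 𝓞 F`. -/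
theorem h10_isArithFrobAt_restrict {Q : Ideal (𝓞 L)} {σ : Gal(L/K)}
    (hσ : IsArithFrobAt (𝓞 K) σ Q) :
    IsArithFrobAt (𝓞 K) (AlgEquiv.restrictNormalHom F σ) (Q.under (𝓞 F)) := by
  intro y
  show (AlgEquiv.restrictNormalHom F σ) • y -
    y ^ Nat.card (𝓞 K ⧸ (Q.under (𝓞 F)).under (𝓞 K)) ∈ Q.under (𝓞 F)
  rw [Ideal.under_under, Ideal.under_def, Ideal.mem_comap, map_sub, map_pow,
    h10_algebraMap_restrict_smul]
  exact hσ (algebraMap (𝓞 F) (𝓞 L) y)

end Restrict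

section BaseChange

variable {K E L M : Type*} [Field K] [Field E] [Field L] [Field M] [NumberField K]
  [NumberField E] [NumberField L] [NumberField M]
  [Algebra K E] [Algebra K L] [Algebra E M] [Algebra L M] [Algebra K M]
  [IsScalarTower K E M] [IsScalarTower K L M] [IsGalois K L] [IsGalois E M]

/-- The restriction to `L` of an element of `Gal(M/E)`, as an element of `Gal(L/K)`. -/
noncomputable def h10_resBC (K L : Type*) {E M : Type*} [Field K] [Field E] [Field L] [Field M]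
    [Algebra K E] [Algebra K L] [Algebra E M] [Algebra L M] [Algebra K M]
    [IsScalarTower K E M] [IsScalarTower K L M] [Normal K L] : Gal(M/E) →* Gal(L/K) :=
  (AlgEquiv.restrictNormalHom L).comp (AlgEquiv.restrictScalarsHom K)

theorem h10_resBC_commutes (τ : Gal(M/E)) (x : L) :
    algebraMap L M (h10_resBC K L τ x) = τ (algebraMap L M x) :=
  AlgEquiv.restrictNormal_commutes (τ.restrictScalars K) L x

theorem h10_algebraMap_resBC_smul (τ : Gal(M/E)) (x : 𝓞 L) :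
    algebraMap (𝓞 L) (𝓞 M) ((h10_resBC K L τ) • x) = τ • algebraMap (𝓞 L) (𝓞 M) x := by
  apply RingOfIntegers.ext
  exact h10_resBC_commutes τ (x : L)

/-- **(BC), congruence form.** The restriction to `L` of a Frobenius of `M/E` at `𝔔` raises to
the power `N(𝔔 ∩ 𝓞 E)` modulo `𝔔 ∩ 𝓞 L`. -/
theorem h10_baseChange_sub_mem {𝔔 : Ideal (𝓞 M)} {τ : Gal(M/E)}
    (hτ : IsArithFrobAt (𝓞 E) τ 𝔔) (x : 𝓞 L) :
    (h10_resBC K L τ) • x - x ^ Nat.card (𝓞 E ⧸ 𝔔.under (𝓞 E)) ∈ 𝔔.under (𝓞 L) := by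
  rw [Ideal.under_def, Ideal.mem_comap, map_sub, map_pow, h10_algebraMap_resBC_smul]
  exact hτ (algebraMap (𝓞 L) (𝓞 M) x)

/-- **(BC)** If `𝔔 ∩ 𝓞 L` has trivial inertia in `L/K` and `σ` is a Frobenius at it, then the
restriction to `L` of a Frobenius of `M/E` at `𝔔` is `σ ^ f`, where
`N(𝔔 ∩ 𝓞 E) = N(𝔔 ∩ 𝓞 K) ^ f`. -/
theorem h10_baseChange_eq_pow {𝔔 : Ideal (𝓞 M)} [𝔔.IsPrime] {τ : Gal(M/E)}
    (hτ : IsArithFrobAt (𝓞 E) τ 𝔔) {σ : Gal(L/K)}
    (hσ : IsArithFrobAt (𝓞 K) σ (𝔔.under (𝓞 L)))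
    (hQ : TrivInertia K (𝔔.under (𝓞 L))) {f : ℕ}
    (hf : Nat.card (𝓞 E ⧸ 𝔔.under (𝓞 E)) = Nat.card (𝓞 K ⧸ 𝔔.under (𝓞 K)) ^ f) :
    h10_resBC K L τ = σ ^ f := by
  apply h10_eq_of_forall_sub_mem hQ
  intro x
  have h1 := h10_baseChange_sub_mem (K := K) (L := L) hτ x
  have h2 := h10_pow_smul_sub_mem hσ f x
  rw [Ideal.under_under, ← hf] at h2
  have h3 : (h10_resBC K L τ) • x - (σ ^ f) • x =
      ((h10_resBC K L τ) • x - x ^ Nat.card (𝓞 E ⧸ 𝔔.under (𝓞 E))) -
        ((σ ^ f) • x - x ^ Nat.card (𝓞 E ⧸ 𝔔.under (𝓞 E))) := by ring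
  rw [h3]
  exact (𝔔.under (𝓞 L)).sub_mem h1 h2

end BaseChange

section Conj

variable {K₀ K L : Type*} [Field K₀] [Field K] [Field L] [NumberField K] [NumberField L]
  [Algebra K₀ K] [Algebra K L] [Algebra K₀ L] [IsScalarTower K₀ K L] [Normal K₀ K]

/-- Conjugation of `Gal(L/K)` by an element of `Gal(L/K₀)`, for `K/K₀` normal. -/
noncomputable def h10_conj (τ : Gal(L/K₀)) (σ : Gal(L/K)) : Gal(L/K) :=
  AlgEquiv.ofRingEquiv (f := (τ.symm.toRingEquiv.trans σ.toRingEquiv).trans τ.toRingEquiv)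
    (fun x => by
      show τ (σ (τ.symm (algebraMap K L x))) = algebraMap K L x
      have h1 : τ.symm (algebraMap K L x) =
          algebraMap K L ((τ.symm.restrictNormal K) x) :=
        (AlgEquiv.restrictNormal_commutes τ.symm K x).symm
      rw [h1, σ.commutes, ← h1, AlgEquiv.apply_symm_apply])

@[simp] theorem h10_conj_apply (τ : Gal(L/K₀)) (σ : Gal(L/K)) (x : L) :
    h10_conj τ σ x = τ (σ (τ⁻¹ x)) := rfl

theorem h10_conj_smul (τ : Gal(L/K₀)) (σ : Gal(L/K)) (x : 𝓞 L) :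
    (h10_conj τ σ) • x = τ • σ • τ⁻¹ • x := rfl

theorem h10_conj_restrictScalars (τ : Gal(L/K₀)) (σ : Gal(L/K)) :
    (h10_conj τ σ).restrictScalars K₀ = τ * σ.restrictScalars K₀ * τ⁻¹ := by
  ext x
  rfl

theorem h10_conj_mul (τ : Gal(L/K₀)) (σ σ' : Gal(L/K)) :
    h10_conj τ (σ * σ') = h10_conj τ σ * h10_conj τ σ' := by
  ext x
  simp [AlgEquiv.mul_apply]

theorem h10_conj_one (τ : Gal(L/K₀)) : h10_conj τ (1 : Gal(L/K)) = 1 := by
  ext x
  simp

/-- Conjugation by `τ` as a group homomorphism. -/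
noncomputable def h10_conjHom (τ : Gal(L/K₀)) : Gal(L/K) →* Gal(L/K) where
  toFun := h10_conj τ
  map_one' := h10_conj_one τ
  map_mul' := h10_conj_mul τ

theorem h10_conj_pow (τ : Gal(L/K₀)) (σ : Gal(L/K)) (n : ℕ) :
    h10_conj τ (σ ^ n) = h10_conj τ σ ^ n :=
  map_pow (h10_conjHom τ) σ n

/-- The prime below `τ • Q` is the translate of the prime below `Q`. -/
theorem h10_under_smul (τ : Gal(L/K₀)) (Q : Ideal (𝓞 L)) :
    (τ • Q).under (𝓞 K) = (AlgEquiv.restrictNormalHom K τ) • (Q.under (𝓞 K)) := by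
  ext x
  rw [Ideal.under_def, Ideal.mem_comap, Ideal.mem_pointwise_smul_iff_inv_smul_mem,
    Ideal.mem_pointwise_smul_iff_inv_smul_mem, Ideal.under_def, Ideal.mem_comap, ← map_inv,
    h10_algebraMap_restrict_smul]

/-- The residue fields at the primes below `Q` and `τ • Q` have the same cardinality. -/
theorem h10_card_under_smul (τ : Gal(L/K₀)) (Q : Ideal (𝓞 L)) :
    Nat.card (𝓞 K ⧸ (τ • Q).under (𝓞 K)) = Nat.card (𝓞 K ⧸ Q.under (𝓞 K)) := by
  rw [h10_under_smul]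
  refine (Nat.card_congr (Ideal.quotientEquiv (Q.under (𝓞 K))
    ((AlgEquiv.restrictNormalHom K τ) • (Q.under (𝓞 K)))
    (MulSemiringAction.toRingEquiv Gal(K/K₀) (𝓞 K) (AlgEquiv.restrictNormalHom K τ))
    rfl).toEquiv).symm

variable [IsGalois K L]

/-- **(E)** Conjugating a Frobenius at `Q` by `τ ∈ Gal(L/K₀)` gives a Frobenius at `τ • Q`. -/
theorem h10_isArithFrobAt_conj {Q : Ideal (𝓞 L)} {σ : Gal(L/K)}
    (hσ : IsArithFrobAt (𝓞 K) σ Q) (τ : Gal(L/K₀)) :
    IsArithFrobAt (𝓞 K) (h10_conj τ σ) (τ • Q) := by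
  intro x
  show (h10_conj τ σ) • x - x ^ Nat.card (𝓞 K ⧸ (τ • Q).under (𝓞 K)) ∈ τ • Q
  rw [h10_card_under_smul, Ideal.mem_pointwise_smul_iff_inv_smul_mem, smul_sub, smul_pow',
    h10_conj_smul, inv_smul_smul]
  exact hσ (τ⁻¹ • x)

end Conj

end Fermat.Agent.S14x.Art.H10
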