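import Mathlib
import Fermat.Agent.S14x.Asm.Defs
import Fermat.Agent.S14x.Art.H10_FrobFunct

/-!
# S14 / ART (helper10): base-change functoriality of the Artin map (`Asm.StFunct`)

`Ψ_{M/E}(𝔄)|_L = Φ_{L/K}(N_{E/K} 𝔄)` for Artin maps `Φ` of `L/K` and `Ψ` of `M/E`.
-/

set_option autoImplicit false
set_option linter.unusedSectionVars false

open NumberField Pointwise

namespace Fermat.Agent.S14x.Art.H10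

open Fermat.Agent.S14x.Asm

section Basic

variable {K L : Type} [Field K] [NumberField K] [Field L] [NumberField L] [Algebra K L]
  [IsGalois K L]

/-- From the interface predicate `IsFrobAt` at `𝔭` to Mathlib's `IsArithFrobAt` at a prime `Q`
of `L` above `𝔭`. -/
theorem h10_isArithFrobAt_of_isFrobAt {𝔭 : Ideal (𝓞 K)} {σ : Gal(L/K)}
    (hσ : IsFrobAt K L 𝔭 σ) {Q : Ideal (𝓞 L)} (hQ : Q.under (𝓞 K) = 𝔭) :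
    IsArithFrobAt (𝓞 K) σ Q := by
  intro x
  show σ • x - x ^ Nat.card (𝓞 K ⧸ Q.under (𝓞 K)) ∈ Q
  rw [hQ]
  have h1 : 𝔭.map (algebraMap (𝓞 K) (𝓞 L)) ≤ Q := by
    rw [Ideal.map_le_iff_le_comap, ← Ideal.under_def, hQ]
  exact h1 (hσ x)

theorem h10_mul_sup_eq_top {R : Type*} [CommRing R] {I J 𝔪 : Ideal R} (h1 : I ⊔ 𝔪 = ⊤)
    (h2 : J ⊔ 𝔪 = ⊤) : I * J ⊔ 𝔪 = ⊤ := by
  rw [Ideal.mul_sup_eq_of_coprime_left h1]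
  exact h2

/-- The Artin map on powers. -/
theorem h10_artin_pow {𝔪 : Ideal (𝓞 K)} {Φ : Ideal (𝓞 K) → Gal(L/K)}
    (hΦ : IsArtinMap K L 𝔪 Φ) {𝔞 : Ideal (𝓞 K)} (h0 : 𝔞 ≠ ⊥) (hc : 𝔞 ⊔ 𝔪 = ⊤) (n : ℕ) :
    𝔞 ^ n ≠ ⊥ ∧ 𝔞 ^ n ⊔ 𝔪 = ⊤ ∧ Φ (𝔞 ^ n) = Φ 𝔞 ^ n := by
  induction n with
  | zero =>
    refine ⟨?_, ?_, ?_⟩
    · rw [pow_zero, Ideal.one_eq_top]; exact top_ne_bot
    · rw [pow_zero, Ideal.one_eq_top, top_sup_eq]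
    · rw [pow_zero, pow_zero, Ideal.one_eq_top, hΦ.map_one]
  | succ n ih =>
    obtain ⟨h1, h2, h3⟩ := ih
    refine ⟨pow_ne_zero _ h0, ?_, ?_⟩
    · rw [pow_succ]
      exact h10_mul_sup_eq_top h2 hc
    · rw [pow_succ, hΦ.map_mul _ _ h1 h0 h2 hc, h3, pow_succ]

end Basic

section Funct

variable {K L E M : Type} [Field K] [NumberField K] [Field L] [NumberField L] [Field E]
  [NumberField E] [Field M] [NumberField M] [Algebra K L] [Algebra K E] [Algebra L M]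
  [Algebra E M] [Algebra K M] [IsScalarTower K L M] [IsScalarTower K E M]
  [IsGalois K L] [IsGalois E M]

/-- A maximal ideal `P` with `¬ J ≤ P` is coprime to `J`. -/
theorem h10_sup_eq_top_of_not_le {R : Type*} [CommRing R] {P J : Ideal R} (hP : P.IsMaximal)
    (h : ¬ J ≤ P) : P ⊔ J = ⊤ := by
  by_contra hne
  have h1 : P ⊔ J = P := by
    have := hP.out.2 (P ⊔ J)
    by_contra h2
    exact hne (this (lt_of_le_of_ne le_sup_left (Ne.symm h2)))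
  exact h (h1 ▸ le_sup_right)

/-- A nonzero prime `𝔮` of `E` prime to `𝔫 ⊆ 𝔪 𝓞_E` lies over a prime of `K` prime to `𝔪`. -/
theorem h10_under_sup_eq_top {𝔪 : Ideal (𝓞 K)} {𝔫 : Ideal (𝓞 E)}
    (h𝔫 : 𝔫 ≤ 𝔪.map (algebraMap (𝓞 K) (𝓞 E))) {𝔮 : Ideal (𝓞 E)} (h𝔮 : 𝔮.IsPrime)
    (h0 : 𝔮 ≠ ⊥) (hc : 𝔮 ⊔ 𝔫 = ⊤) : 𝔮.under (𝓞 K) ⊔ 𝔪 = ⊤ := by
  have hp0 : 𝔮.under (𝓞 K) ≠ ⊥ := Ideal.under_ne_bot (𝓞 K) h0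
  have hpm : (𝔮.under (𝓞 K)).IsMaximal := (Ideal.IsPrime.under (𝓞 K) 𝔮).isMaximal hp0
  apply h10_sup_eq_top_of_not_le hpm
  intro hle
  have h1 : 𝔪.map (algebraMap (𝓞 K) (𝓞 E)) ≤ 𝔮 := by
    rw [Ideal.map_le_iff_le_comap]
    exact hle
  have h2 : 𝔮 ⊔ 𝔫 = 𝔮 := sup_eq_left.mpr (h𝔫.trans h1)
  rw [h2] at hc
  exact h𝔮.ne_top hc

/-- **Base change, prime case.** -/
theorem h10_funct_prime {𝔪 : Ideal (𝓞 K)} {𝔫 : Ideal (𝓞 E)}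
    (h𝔫 : 𝔫 ≤ 𝔪.map (algebraMap (𝓞 K) (𝓞 E))) (hKL : UnramifiedOutside K L 𝔪)
    {Φ : Ideal (𝓞 K) → Gal(L/K)} {Ψ : Ideal (𝓞 E) → Gal(M/E)}
    (hΦ : IsArtinMap K L 𝔪 Φ) (hΨ : IsArtinMap E M 𝔫 Ψ)
    {𝔮 : Ideal (𝓞 E)} (h𝔮 : 𝔮.IsPrime) (h0 : 𝔮 ≠ ⊥) (hc : 𝔮 ⊔ 𝔫 = ⊤) :
    Ideal.relNorm (𝓞 K) 𝔮 ⊔ 𝔪 = ⊤ ∧ h10_resBC K L (Ψ 𝔮) = Φ (Ideal.relNorm (𝓞 K) 𝔮) := by
  set 𝔭 : Ideal (𝓞 K) := 𝔮.under (𝓞 K) with h𝔭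
  have hp0 : 𝔭 ≠ ⊥ := Ideal.under_ne_bot (𝓞 K) h0
  have hpp : 𝔭.IsPrime := Ideal.IsPrime.under (𝓞 K) 𝔮
  have hpc : 𝔭 ⊔ 𝔪 = ⊤ := h10_under_sup_eq_top h𝔫 h𝔮 h0 hc
  have : 𝔮.LiesOver 𝔭 := ⟨rfl⟩
  obtain ⟨s, hs⟩ := Ideal.exists_relNorm_eq_pow_of_isPrime 𝔮 𝔭
  obtain ⟨hn0, hnc, hnΦ⟩ := h10_artin_pow hΦ hp0 hpc s
  refine ⟨by rw [hs]; exact hnc, ?_⟩
  rw [hs, hnΦ]
  -- the norms
  have hN : Nat.card (𝓞 E ⧸ 𝔮) = Nat.card (𝓞 K ⧸ 𝔭) ^ s := by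
    have h1 := Ideal.absNorm_relNorm (R := 𝓞 K) (S := 𝓞 E) 𝔮
    rw [hs, map_pow] at h1
    rw [Ideal.absNorm_apply, Ideal.absNorm_apply, Submodule.cardQuot_apply,
      Submodule.cardQuot_apply] at h1
    exact h1.symm
  -- a maximal ideal of `𝓞 M` above `𝔮`
  have h𝔮m : 𝔮.IsMaximal := h𝔮.isMaximal h0
  obtain ⟨𝔓, h𝔓m, h𝔓o⟩ := Ideal.exists_maximal_ideal_liesOver_of_isIntegral (S := 𝓞 M) 𝔮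
  have := h𝔓m
  have h𝔓E : 𝔓.under (𝓞 E) = 𝔮 := h𝔓o.over.symm
  have h𝔓K : 𝔓.under (𝓞 K) = 𝔭 := by
    rw [← Ideal.under_under (B := 𝓞 E), h𝔓E]
  set Q : Ideal (𝓞 L) := 𝔓.under (𝓞 L) with hQ
  have hQK : Q.under (𝓞 K) = 𝔭 := by
    rw [hQ, Ideal.under_under, h𝔓K]
  have hQp : Q.IsPrime := Ideal.IsPrime.under (𝓞 L) 𝔓
  have hQ0 : Q ≠ ⊥ := by
    intro h
    rw [h, Ideal.under_bot] at hQK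
    exact hp0 hQK.symm
  have hτ : IsArithFrobAt (𝓞 E) (Ψ 𝔮) 𝔓 :=
    h10_isArithFrobAt_of_isFrobAt (hΨ.frob 𝔮 h𝔮 h0 hc) h𝔓E
  have hσ : IsArithFrobAt (𝓞 K) (Φ 𝔭) Q :=
    h10_isArithFrobAt_of_isFrobAt (hΦ.frob 𝔭 hpp hp0 hpc) hQK
  have hQt : TrivInertia K Q := hKL 𝔭 hpp hp0 hpc Q hQp hQ0 (le_of_eq hQK.symm)
  exact h10_baseChange_eq_pow hτ hσ hQt (by rw [h𝔓E, h𝔓K]; exact hN)

/-- **Base change, products of primes.** -/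
theorem h10_funct_multiset {𝔪 : Ideal (𝓞 K)} {𝔫 : Ideal (𝓞 E)}
    (h𝔫 : 𝔫 ≤ 𝔪.map (algebraMap (𝓞 K) (𝓞 E))) (hKL : UnramifiedOutside K L 𝔪)
    {Φ : Ideal (𝓞 K) → Gal(L/K)} {Ψ : Ideal (𝓞 E) → Gal(M/E)}
    (hΦ : IsArtinMap K L 𝔪 Φ) (hΨ : IsArtinMap E M 𝔫 Ψ) (s : Multiset (Ideal (𝓞 E)))
    (hs : ∀ 𝔮 ∈ s, 𝔮.IsPrime ∧ 𝔮 ≠ ⊥ ∧ 𝔮 ⊔ 𝔫 = ⊤) :
    s.prod ≠ ⊥ ∧ s.prod ⊔ 𝔫 = ⊤ ∧ Ideal.relNorm (𝓞 K) s.prod ⊔ 𝔪 = ⊤ ∧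
      h10_resBC K L (Ψ s.prod) = Φ (Ideal.relNorm (𝓞 K) s.prod) := by
  induction s using Multiset.induction_on with
  | empty =>
    rw [Multiset.prod_zero, Ideal.one_eq_top]
    refine ⟨top_ne_bot, top_sup_eq _, ?_, ?_⟩
    · rw [Ideal.relNorm_top, top_sup_eq]
    · rw [Ideal.relNorm_top, hΨ.map_one, hΦ.map_one, map_one]
  | cons a s ih =>
    obtain ⟨ha1, ha2, ha3⟩ := hs a (Multiset.mem_cons_self a s)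
    obtain ⟨h1, h2, h3, h4⟩ := ih fun 𝔮 h𝔮 => hs 𝔮 (Multiset.mem_cons_of_mem h𝔮)
    obtain ⟨h5, h6⟩ := h10_funct_prime h𝔫 hKL hΦ hΨ ha1 ha2 ha3
    rw [Multiset.prod_cons]
    refine ⟨mul_ne_zero ha2 h1, h10_mul_sup_eq_top ha3 h2, ?_, ?_⟩
    · rw [map_mul]
      exact h10_mul_sup_eq_top h5 h3
    · rw [hΨ.map_mul _ _ ha2 h1 ha3 h2, map_mul, map_mul,
        hΦ.map_mul _ _ (by rwa [Ne, Ideal.relNorm_eq_bot_iff])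
          (by rwa [Ne, Ideal.relNorm_eq_bot_iff]) h5 h3, h6, h4]

/-- **Base change functoriality of the Artin map**, in terms of the restriction homomorphism. -/
theorem h10_funct {𝔪 : Ideal (𝓞 K)} {𝔫 : Ideal (𝓞 E)}
    (h𝔫 : 𝔫 ≤ 𝔪.map (algebraMap (𝓞 K) (𝓞 E))) (hKL : UnramifiedOutside K L 𝔪)
    {Φ : Ideal (𝓞 K) → Gal(L/K)} {Ψ : Ideal (𝓞 E) → Gal(M/E)}
    (hΦ : IsArtinMap K L 𝔪 Φ) (hΨ : IsArtinMap E M 𝔫 Ψ) {𝔄 : Ideal (𝓞 E)} (h0 : 𝔄 ≠ ⊥)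
    (hc : 𝔄 ⊔ 𝔫 = ⊤) :
    Ideal.relNorm (𝓞 K) 𝔄 ⊔ 𝔪 = ⊤ ∧
      h10_resBC K L (Ψ 𝔄) = Φ (Ideal.relNorm (𝓞 K) 𝔄) := by
  classical
  have key := h10_funct_multiset h𝔫 hKL hΦ hΨ (UniqueFactorizationMonoid.normalizedFactors 𝔄)
    (fun 𝔮 h𝔮 => by
      have h𝔮0 : 𝔮 ≠ ⊥ := UniqueFactorizationMonoid.ne_zero_of_mem_normalizedFactors h𝔮
      rw [Ideal.mem_normalizedFactors_iff h0] at h𝔮
      refine ⟨h𝔮.1, h𝔮0, ?_⟩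
      exact top_le_iff.mp (hc ▸ sup_le_sup_right h𝔮.2 𝔫))
  rw [Ideal.prod_normalizedFactors_eq_self h0] at key
  exact ⟨key.2.2.1, key.2.2.2⟩

end Funct

/-- **Deliverable of ART: base-change functoriality**, verbatim `Asm.StFunct`. -/
theorem stFunct : Fermat.Agent.S14x.Asm.StFunct := by
  intro K L E M _ _ _ _ _ _ _ _ _ _ _ _ _ _ _ _ _ _ _ 𝔪 𝔫 h𝔫 hKL _ Φ Ψ hΦ hΨ 𝔄 h0 hc x
  have h := (h10_funct h𝔫 hKL hΦ hΨ h0 hc).2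
  rw [← h]
  exact (h10_resBC_commutes (Ψ 𝔄) x).symm

end Fermat.Agent.S14x.Art.H10
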