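import Fermat.Agent.S14x.Art.H28_Artin
import Fermat.Agent.S14x.Asm.Defs

/-!
# S14 / [ART]: the deliverables `Asm.StArtinExists` and `Asm.StN` (helper28)

Bridge between the vocabulary of `Asm/Defs.lean` (`IsFrobAt`, `InertiaTrivialAt`,
`UnramifiedOutside`, `IsArtinMap`) and the concrete Artin map `artinI K L` of `H28_Artin`:

* `isUnramifiedAt_of_inertia_trivial`, `ramificationIdx_eq_one_of_inertia_trivial` :
  trivial inertia group ⇒ unramified (`e = 1`);
* `isUnramifiedIn_of_inertiaTrivialAt`   : `Asm.InertiaTrivialAt` ⇒ `Algebra.IsUnramifiedIn`;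
* `mem_map_of_forall_mem`               : `v 𝓞_L = ⋂ Q` for `v` unramified;
* `isFrobAt_frobAt`, `eq_frobAt_of_isFrobAt` : `Asm.IsFrobAt K L v σ ↔ σ = frobAt K L v`;
* `isArtinMap_artinI`                   : `artinI K L` is an Artin map away from `𝔪`;
* `eq_artinI_of_isArtinMap`             : EVERY Artin map away from `𝔪` agrees with `artinI K L`
                                          on the ideals prime to `𝔪`;
* `stArtinExists : Asm.StArtinExists`, `stN : Asm.StN`.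
-/

set_option autoImplicit false
set_option linter.unusedSectionVars false
set_option linter.style.haveILetI false

open NumberField IsDedekindDomain
open scoped Pointwise nonZeroDivisors IsMulCommutative

noncomputable section

namespace Fermat.Agent.S14x.Art.H28

open Fermat.Agent.S14x

section general

variable {K : Type*} (L : Type*) [Field K] [NumberField K] [Field L] [NumberField L] [Algebra K L]
  [IsGalois K L]

/-- For a prime `v` of `K` unramified in `L`, an element of `𝓞 L` lying in all the primes above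
`v` lies in `v 𝓞_L`. -/
theorem mem_map_of_forall_mem {v : HeightOneSpectrum (𝓞 K)}
    (hv : Algebra.IsUnramifiedIn (𝓞 L) v.asIdeal) (y : 𝓞 L)
    (hy : ∀ Q : Ideal (𝓞 L), Q.IsPrime → Q.LiesOver v.asIdeal → y ∈ Q) :
    y ∈ v.asIdeal.map (algebraMap (𝓞 K) (𝓞 L)) := by
  classical
  rw [Ideal.map_algebraMap_eq_finsetProd_pow (R := 𝓞 L) v.ne_bot]
  have h1 : ∀ P ∈ (v.asIdeal.primesOver (𝓞 L)).toFinset, P ^ P.ramificationIdx (𝓞 K) = P := by
    intro P hP
    rw [Set.mem_toFinset] at hP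
    have := hP.1
    have := hv P hP.1 hP.2
    rw [Ideal.ramificationIdx_eq_one_of_isUnramifiedAt, pow_one]
  rw [Finset.prod_congr rfl h1, Ideal.prod_eq_iInf_of_pairwise_isCoprime]
  · simp only [Set.mem_toFinset, Ideal.mem_iInf]
    intro P hP
    exact hy P hP.1 hP.2
  · intro P hP P' hP' hne
    rw [Finset.mem_coe, Set.mem_toFinset] at hP hP'
    have hlo : P.LiesOver v.asIdeal := hP.2
    have hlo' : P'.LiesOver v.asIdeal := hP'.2
    have hPm : P.IsMaximal :=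
      Ring.DimensionLEOne.maximalOfPrime (ne_bot_of_liesOver v P) hP.1
    have hPm' : P'.IsMaximal :=
      Ring.DimensionLEOne.maximalOfPrime (ne_bot_of_liesOver v P') hP'.1
    show IsCoprime P P'
    rw [Ideal.isCoprime_iff_sup_eq]
    exact Ideal.IsMaximal.coprime_of_ne hPm hPm' hne

/-- Trivial inertia group ⇒ ramification index `1`. -/
theorem ramificationIdx_eq_one_of_inertia_trivial (v : HeightOneSpectrum (𝓞 K))
    (P : Ideal (𝓞 L)) [P.IsPrime] [P.LiesOver v.asIdeal]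
    (h : ∀ σ : Gal(L/K), (∀ x : 𝓞 L, σ • x - x ∈ P) → σ = 1) :
    P.ramificationIdx (𝓞 K) = 1 := by
  have hbot : P.inertia Gal(L/K) = ⊥ := by
    rw [eq_bot_iff]
    intro σ hσ
    rw [Subgroup.mem_bot]
    exact h σ hσ
  have hcard := Ideal.card_inertia_eq_ramificationIdxIn (G := Gal(L/K)) v.asIdeal P
  rw [hbot, Subgroup.card_bot, Ideal.ramificationIdxIn_eq_ramificationIdx v.asIdeal P Gal(L/K)]
    at hcard
  exact hcard.symm

/-- Trivial inertia group ⇒ unramified (Mathlib's `Algebra.IsUnramifiedAt`). -/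
theorem isUnramifiedAt_of_inertia_trivial (v : HeightOneSpectrum (𝓞 K)) (P : Ideal (𝓞 L))
    [P.IsPrime] [P.LiesOver v.asIdeal]
    (h : ∀ σ : Gal(L/K), (∀ x : 𝓞 L, σ • x - x ∈ P) → σ = 1) :
    Algebra.IsUnramifiedAt (𝓞 K) P :=
  Ideal.ramificationIdx_eq_one_iff.mp (ramificationIdx_eq_one_of_inertia_trivial L v P h)

end general

section asm

variable {K L : Type} [Field K] [NumberField K] [Field L] [NumberField L] [Algebra K L]
  [IsGalois K L]

/-- `Asm.InertiaTrivialAt` ⇒ Mathlib's `Algebra.IsUnramifiedIn`. -/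
theorem isUnramifiedIn_of_inertiaTrivialAt (v : HeightOneSpectrum (𝓞 K))
    (h : Asm.InertiaTrivialAt K L v.asIdeal) : Algebra.IsUnramifiedIn (𝓞 L) v.asIdeal := by
  intro P hP hlo
  exact isUnramifiedAt_of_inertia_trivial L v P
    (h P hP (ne_bot_of_liesOver v P) (le_of_eq (Ideal.over_def P v.asIdeal)))

/-- `Asm.UnramifiedEverywhere` ⇒ every prime of `K` is unramified in `L`. -/
theorem isUnramifiedIn_of_unramifiedEverywhere (h : Asm.UnramifiedEverywhere K L)
    (v : HeightOneSpectrum (𝓞 K)) : Algebra.IsUnramifiedIn (𝓞 L) v.asIdeal :=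
  isUnramifiedIn_of_inertiaTrivialAt v fun P hP hP0 _ => h P hP hP0

/-- `Asm.UnramifiedOutside 𝔪` ⇒ every prime of `K` prime to `𝔪` is unramified in `L`. -/
theorem isUnramifiedIn_of_unramifiedOutside {𝔪 : Ideal (𝓞 K)} (h : Asm.UnramifiedOutside K L 𝔪)
    (v : HeightOneSpectrum (𝓞 K)) (hv : v.asIdeal ⊔ 𝔪 = ⊤) :
    Algebra.IsUnramifiedIn (𝓞 L) v.asIdeal :=
  isUnramifiedIn_of_inertiaTrivialAt v (h v.asIdeal v.isPrime v.ne_bot hv)

section abelian

variable [IsMulCommutative Gal(L/K)]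

/-- `frobAt K L v` is a Frobenius at `v` in the sense of `Asm.IsFrobAt`. -/
theorem isFrobAt_frobAt {v : HeightOneSpectrum (𝓞 K)}
    (hv : Algebra.IsUnramifiedIn (𝓞 L) v.asIdeal) : Asm.IsFrobAt K L v.asIdeal (frobAt K L v) := by
  intro x
  refine mem_map_of_forall_mem L hv _ fun Q hQ hlo => ?_
  have h := frobAt_spec hv Q x
  rw [← Ideal.over_def Q v.asIdeal] at h
  exact h

/-- A Frobenius at `v` in the sense of `Asm.IsFrobAt` is `frobAt K L v`. -/
theorem eq_frobAt_of_isFrobAt {v : HeightOneSpectrum (𝓞 K)}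
    (hv : Algebra.IsUnramifiedIn (𝓞 L) v.asIdeal) {σ : Gal(L/K)}
    (hσ : Asm.IsFrobAt K L v.asIdeal σ) : σ = frobAt K L v := by
  refine eq_frobAt hv (primeOver L v) fun x => ?_
  have h := hσ x
  have hle : v.asIdeal.map (algebraMap (𝓞 K) (𝓞 L)) ≤ primeOver L v := by
    rw [Ideal.map_le_iff_le_comap]
    exact le_of_eq (Ideal.over_def (primeOver L v) v.asIdeal)
  have h2 := hle h
  rw [Ideal.over_def (primeOver L v) v.asIdeal] at h2
  exact h2

/-- **`artinI K L` is an Artin map** away from `𝔪`, if `L / K` is unramified outside `𝔪`. -/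
theorem isArtinMap_artinI {𝔪 : Ideal (𝓞 K)} (h : Asm.UnramifiedOutside K L 𝔪) :
    Asm.IsArtinMap K L 𝔪 (artinI K L) where
  map_one := artinI_top L
  map_mul 𝔞 𝔟 h𝔞 h𝔟 _ _ := artinI_mul L h𝔞 h𝔟
  frob 𝔭 h𝔭 h0 hm := by
    let v : HeightOneSpectrum (𝓞 K) := ⟨𝔭, h𝔭, h0⟩
    have h1 : artinI K L v.asIdeal = frobAt K L v := artinI_prime L v
    have h2 : Asm.IsFrobAt K L v.asIdeal (frobAt K L v) :=
      isFrobAt_frobAt (isUnramifiedIn_of_unramifiedOutside h v hm)
    rw [← h1] at h2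
    exact h2

/-- **Uniqueness**: every Artin map away from `𝔪` agrees with `artinI K L` on the nonzero ideals
prime to `𝔪`. -/
theorem eq_artinI_of_isArtinMap {𝔪 : Ideal (𝓞 K)} (h : Asm.UnramifiedOutside K L 𝔪)
    {Φ : Ideal (𝓞 K) → Gal(L/K)} (hΦ : Asm.IsArtinMap K L 𝔪 Φ) (𝔞 : Ideal (𝓞 K)) (h𝔞 : 𝔞 ≠ ⊥)
    (hm : 𝔞 ⊔ 𝔪 = ⊤) : Φ 𝔞 = artinI K L 𝔞 := by
  revert hm
  refine ideal_induction (P := fun 𝔞 => 𝔞 ⊔ 𝔪 = ⊤ → Φ 𝔞 = artinI K L 𝔞) ?_ ?_ 𝔞 h𝔞
  · intro _
    rw [hΦ.map_one, artinI_top]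
  · intro v J hJ ih hm
    have hv : v.asIdeal ⊔ 𝔪 = ⊤ :=
      eq_top_iff.mpr (hm ▸ sup_le_sup_right Ideal.mul_le_left 𝔪)
    have hJm : J ⊔ 𝔪 = ⊤ :=
      eq_top_iff.mpr (hm ▸ sup_le_sup_right Ideal.mul_le_right 𝔪)
    rw [hΦ.map_mul _ _ v.ne_bot hJ hv hJm, artinI_mul L v.ne_bot hJ, ih hJm, artinI_prime]
    congr 1
    exact eq_frobAt_of_isFrobAt (isUnramifiedIn_of_unramifiedOutside h v hv)
      (hΦ.frob v.asIdeal v.isPrime v.ne_bot hv)

end abelian

end asm

/-- **Deliverable of ART**: existence of the Artin map. -/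
theorem stArtinExists : Asm.StArtinExists := by
  intro K L _ _ _ _ _ _ hcomm 𝔪 h
  have : IsMulCommutative Gal(L/K) := ⟨⟨hcomm⟩⟩
  exact ⟨artinI K L, isArtinMap_artinI h⟩

/-- **Deliverable of ART, (N)**: norms are in the kernel of every Artin map. -/
theorem stN : Asm.StN := by
  intro K L _ _ _ _ _ _ hcomm 𝔪 h Φ hΦ 𝔄 h𝔄 hm
  have : IsMulCommutative Gal(L/K) := ⟨⟨hcomm⟩⟩
  rw [eq_artinI_of_isArtinMap h hΦ _ (by rwa [Ne, Ideal.relNorm_eq_bot_iff]) hm]
  exact artinI_relNorm L 𝔄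

end Fermat.Agent.S14x.Art.H28
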