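import Mathlib

/-!
# S14, package ART: the Artin map of an abelian extension of number fields — interface

`K ⊆ L` number fields given as TYPES with `[Algebra K L]`; `G = L ≃ₐ[K] L`; `𝓞 K`, `𝓞 L` the
rings of integers; ideals are nonzero INTEGRAL ideals `(Ideal (𝓞 K))⁰` (a commutative monoid).

* `IsFrob K L g Q`        : `g x ≡ x ^ N(Q ∩ 𝓞 K)  (mod Q)` for all `x ∈ 𝓞 L`  (elementwise, no
                            `SMulCommClass` instance needed);
* `InertiaTrivial K L Q`  : the inertia group of `Q` in `G` is trivial;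
* `UnramIn K L v`         : every prime of `𝓞 L` above the ideal `v` of `𝓞 K` has trivial inertia;
* `UnramEverywhere K L`   : every nonzero prime of `𝓞 L` has trivial inertia;
* `primeIdeal K v`        : a height-one prime `v` as an element of `(Ideal (𝓞 K))⁰`;
* `CoprimeRam K L 𝔞`      : no prime factor of `𝔞` ramifies in `L`;
* `IsArtinMap K L Φ`      : the monoid homomorphism `Φ : (Ideal (𝓞 K))⁰ →* G` is a Frobenius at
                            every prime of `L` above every prime of `K` unramified in `L`.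
                            (Nothing is required at ramified primes.)
* `relNorm0 K L`          : the relative ideal norm `(Ideal (𝓞 L))⁰ →* (Ideal (𝓞 K))⁰`;
* `span0 K β hβ`          : the principal ideal `(β)`, `β ≠ 0`, as an element of `(Ideal (𝓞 K))⁰`;
* `smul0 σ 𝔞`             : the conjugate ideal `σ 𝔞`, `σ : K ≃ₐ[ℚ] K`.
-/

set_option autoImplicit false
set_option linter.unusedSectionVars false

open NumberField IsDedekindDomain nonZeroDivisors
open scoped Pointwise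

namespace Fermat.Agent.S14x.Art

section

variable (K L : Type*) [Field K] [Field L] [Algebra K L]

/-- `g` is a Frobenius element at the ideal `Q` of `𝓞 L`, relative to `𝓞 K`:
`g x ≡ x ^ #(𝓞 K / Q ∩ 𝓞 K) (mod Q)` for every `x ∈ 𝓞 L`. -/
def IsFrob (g : L ≃ₐ[K] L) (Q : Ideal (𝓞 L)) : Prop :=
  ∀ x : 𝓞 L, g • x - x ^ Nat.card (𝓞 K ⧸ Q.under (𝓞 K)) ∈ Q

/-- The inertia group of `Q` in `Gal(L/K)` is trivial. -/
def InertiaTrivial (Q : Ideal (𝓞 L)) : Prop :=
  ∀ g : L ≃ₐ[K] L, (∀ x : 𝓞 L, g • x - x ∈ Q) → g = 1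

/-- The ideal `v` of `𝓞 K` is unramified in `L`: every prime of `𝓞 L` above `v` has trivial
inertia group. -/
def UnramIn (v : Ideal (𝓞 K)) : Prop :=
  ∀ Q : Ideal (𝓞 L), Q.IsPrime → Q.under (𝓞 K) = v → InertiaTrivial K L Q

/-- `L / K` is unramified at every (finite) prime. -/
def UnramEverywhere : Prop :=
  ∀ Q : Ideal (𝓞 L), Q.IsPrime → Q ≠ ⊥ → InertiaTrivial K L Q

end

section

variable (K : Type*) [Field K] [NumberField K]

/-- A height-one prime as a nonzero integral ideal. -/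
def primeIdeal (v : HeightOneSpectrum (𝓞 K)) : (Ideal (𝓞 K))⁰ :=
  ⟨v.asIdeal, mem_nonZeroDivisors_of_ne_zero v.ne_bot⟩

@[simp] theorem coe_primeIdeal (v : HeightOneSpectrum (𝓞 K)) :
    ((primeIdeal K v : (Ideal (𝓞 K))⁰) : Ideal (𝓞 K)) = v.asIdeal := rfl

/-- The principal ideal `(β)`, `β ≠ 0`, as a nonzero integral ideal. -/
def span0 (β : 𝓞 K) (hβ : β ≠ 0) : (Ideal (𝓞 K))⁰ :=
  ⟨Ideal.span {β}, mem_nonZeroDivisors_of_ne_zero (by
    rw [Ne, Ideal.zero_eq_bot, Ideal.span_singleton_eq_bot]; exact hβ)⟩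

omit [NumberField K] in
@[simp] theorem coe_span0 (β : 𝓞 K) (hβ : β ≠ 0) :
    ((span0 K β hβ : (Ideal (𝓞 K))⁰) : Ideal (𝓞 K)) = Ideal.span {β} := rfl

variable {K} in
/-- The conjugate `σ 𝔞` of a nonzero integral ideal under an automorphism `σ` of `K`. -/
def smul0 (σ : K ≃ₐ[ℚ] K) (𝔞 : (Ideal (𝓞 K))⁰) : (Ideal (𝓞 K))⁰ :=
  ⟨σ • (𝔞 : Ideal (𝓞 K)), mem_nonZeroDivisors_of_ne_zero (by
    intro h
    have h1 : (𝔞 : Ideal (𝓞 K)) = σ⁻¹ • (σ • (𝔞 : Ideal (𝓞 K))) := (inv_smul_smul σ _).symm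
    rw [h, Ideal.zero_eq_bot, Ideal.pointwise_smul_def, Ideal.map_bot] at h1
    exact nonZeroDivisors.coe_ne_zero 𝔞 h1)⟩

@[simp] theorem coe_smul0 (σ : K ≃ₐ[ℚ] K) (𝔞 : (Ideal (𝓞 K))⁰) :
    ((smul0 σ 𝔞 : (Ideal (𝓞 K))⁰) : Ideal (𝓞 K)) = σ • (𝔞 : Ideal (𝓞 K)) := rfl

end

section

variable (K L : Type*) [Field K] [Field L] [NumberField K] [NumberField L] [Algebra K L]

/-- No prime factor of the nonzero ideal `𝔞` ramifies in `L`. -/
def CoprimeRam (𝔞 : (Ideal (𝓞 K))⁰) : Prop :=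
  ∀ v : HeightOneSpectrum (𝓞 K), (𝔞 : Ideal (𝓞 K)) ≤ v.asIdeal → UnramIn K L v.asIdeal

/-- `Φ` is an Artin map of `L / K`: for every prime `v` of `K` unramified in `L` and every prime
`Q` of `L` above `v`, `Φ v` is a Frobenius element at `Q`. -/
def IsArtinMap (Φ : (Ideal (𝓞 K))⁰ →* (L ≃ₐ[K] L)) : Prop :=
  ∀ v : HeightOneSpectrum (𝓞 K), UnramIn K L v.asIdeal →
    ∀ Q : Ideal (𝓞 L), Q.IsPrime → Q.under (𝓞 K) = v.asIdeal →
      IsFrob K L (Φ (primeIdeal K v)) Q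

/-- The relative norm on nonzero integral ideals. -/
noncomputable def relNorm0 : (Ideal (𝓞 L))⁰ →* (Ideal (𝓞 K))⁰ where
  toFun 𝔄 := ⟨Ideal.relNorm (𝓞 K) (𝔄 : Ideal (𝓞 L)), mem_nonZeroDivisors_of_ne_zero (by
    rw [Ne, Ideal.zero_eq_bot, Ideal.relNorm_eq_bot_iff, ← Ideal.zero_eq_bot]
    exact nonZeroDivisors.coe_ne_zero 𝔄)⟩
  map_one' := by
    apply Subtype.ext
    simp
  map_mul' a b := by
    apply Subtype.ext
    simp

@[simp] theorem coe_relNorm0 (𝔄 : (Ideal (𝓞 L))⁰) :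
    ((relNorm0 K L 𝔄 : (Ideal (𝓞 K))⁰) : Ideal (𝓞 K)) =
      Ideal.relNorm (𝓞 K) (𝔄 : Ideal (𝓞 L)) := rfl

end

end Fermat.Agent.S14x.Art
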