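import Fermat.Agent.S14x.Art.H28_Frob

/-!
# S14 / [ART]: the Artin map of an abelian extension of number fields (helper28)

* `idealHom K φ`  : for a Dedekind domain `R` with fraction field `K` and a commutative group
                    `G`, the multiplicative extension of `φ : HeightOneSpectrum R → G` to the group
                    of fractional ideals, `I ↦ ∏ᶠ v, φ v ^ count v I`;
* `artin K L`     : the Artin map `(FractionalIdeal (𝓞 K)⁰ K)ˣ →* Gal(L/K)` of an abelian extension
                    (`frobAt K L v = 1` at the ramified primes);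
* `artinI K L I`  : the same on integral ideals (`1` on the zero ideal);
* `artinI_relNorm`: **(N)** norms of ideals of `L` are in the kernel.
-/

set_option autoImplicit false
set_option linter.unusedSectionVars false
set_option linter.style.haveILetI false

open NumberField IsDedekindDomain
open scoped Pointwise nonZeroDivisors IsMulCommutative

noncomputable section

namespace Fermat.Agent.S14x.Art.H28

section extend

variable {R : Type*} [CommRing R] [IsDedekindDomain R] (K : Type*) [Field K] [Algebra R K]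
  [IsFractionRing R K] {G : Type*} [CommGroup G]

theorem finite_mulSupport_count (φ : HeightOneSpectrum R → G) (I : FractionalIdeal R⁰ K) :
    (Function.mulSupport fun v : HeightOneSpectrum R =>
      φ v ^ FractionalIdeal.count K v I).Finite := by
  have h := FractionalIdeal.finite_factors (K := K) I
  rw [Filter.eventually_cofinite] at h
  refine h.subset ?_
  intro v hv
  rw [Function.mem_mulSupport] at hv
  intro h0
  apply hv
  rw [h0, zpow_zero]

/-- The multiplicative extension of a function on the primes to the group of fractional ideals. -/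
def idealHom (φ : HeightOneSpectrum R → G) : (FractionalIdeal R⁰ K)ˣ →* G where
  toFun I := ∏ᶠ v : HeightOneSpectrum R,
    φ v ^ FractionalIdeal.count K v (I : FractionalIdeal R⁰ K)
  map_one' := by
    simp only [Units.val_one, FractionalIdeal.count_one, zpow_zero, finprod_one]
  map_mul' I J := by
    rw [← finprod_mul_distrib (finite_mulSupport_count K φ _) (finite_mulSupport_count K φ _)]
    refine finprod_congr fun v => ?_
    rw [Units.val_mul, FractionalIdeal.count_mul K v I.ne_zero J.ne_zero, zpow_add]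

theorem idealHom_apply (φ : HeightOneSpectrum R → G) (I : (FractionalIdeal R⁰ K)ˣ) :
    idealHom K φ I = ∏ᶠ v : HeightOneSpectrum R,
      φ v ^ FractionalIdeal.count K v (I : FractionalIdeal R⁰ K) := rfl

open Classical in
/-- The value of `idealHom` on a fractional ideal all of whose `count`s are known. -/
theorem idealHom_eq_of_count (φ : HeightOneSpectrum R → G) (I : (FractionalIdeal R⁰ K)ˣ)
    (w : HeightOneSpectrum R) (n : ℤ)
    (h : ∀ v, FractionalIdeal.count K v (I : FractionalIdeal R⁰ K) = if v = w then n else 0) :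
    idealHom K φ I = φ w ^ n := by
  rw [idealHom_apply, finprod_eq_single _ w]
  · rw [h w, if_pos rfl]
  · intro v hv
    rw [h v, if_neg hv, zpow_zero]

end extend

section artin

variable (K L : Type*) [Field K] [NumberField K] [Field L] [NumberField L] [Algebra K L]
  [IsGalois K L] [IsMulCommutative Gal(L/K)]

/-- **(A)** The Artin map of the abelian extension `L / K`, on the group of fractional ideals of
`K` (the Frobenius at the ramified primes is replaced by `1`). -/
def artin : (FractionalIdeal (𝓞 K)⁰ K)ˣ →* Gal(L/K) :=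
  idealHom K (frobAt K L)

theorem artin_apply (I : (FractionalIdeal (𝓞 K)⁰ K)ˣ) :
    artin K L I = ∏ᶠ v : HeightOneSpectrum (𝓞 K),
      frobAt K L v ^ FractionalIdeal.count K v (I : FractionalIdeal (𝓞 K)⁰ K) := rfl

/-- **(A)** The Artin symbol of an integral ideal (`1` for the zero ideal). -/
def artinI (I : Ideal (𝓞 K)) : Gal(L/K) :=
  ∏ᶠ v : HeightOneSpectrum (𝓞 K),
    frobAt K L v ^ FractionalIdeal.count K v (I : FractionalIdeal (𝓞 K)⁰ K)

theorem artinI_def (I : Ideal (𝓞 K)) :
    artinI K L I = ∏ᶠ v : HeightOneSpectrum (𝓞 K),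
      frobAt K L v ^ FractionalIdeal.count K v (I : FractionalIdeal (𝓞 K)⁰ K) := rfl

/-- A nonzero integral ideal as a unit of the monoid of fractional ideals. -/
def unitOfIdeal (I : Ideal (𝓞 K)) (hI : I ≠ ⊥) : (FractionalIdeal (𝓞 K)⁰ K)ˣ :=
  Units.mk0 (I : FractionalIdeal (𝓞 K)⁰ K) (FractionalIdeal.coeIdeal_ne_zero.mpr hI)

@[simp]
theorem coe_unitOfIdeal (I : Ideal (𝓞 K)) (hI : I ≠ ⊥) :
    ((unitOfIdeal K I hI : (FractionalIdeal (𝓞 K)⁰ K)ˣ) : FractionalIdeal (𝓞 K)⁰ K) = I := rfl

theorem artin_unitOfIdeal (I : Ideal (𝓞 K)) (hI : I ≠ ⊥) :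
    artin K L (unitOfIdeal K I hI) = artinI K L I := rfl

variable {K}

theorem artinI_bot : artinI K L (⊥ : Ideal (𝓞 K)) = 1 := by
  rw [artinI_def]
  simp only [FractionalIdeal.coeIdeal_bot, FractionalIdeal.count_zero, zpow_zero, finprod_one]

theorem artinI_top : artinI K L (⊤ : Ideal (𝓞 K)) = 1 := by
  rw [artinI_def]
  simp only [FractionalIdeal.coeIdeal_top, FractionalIdeal.count_one, zpow_zero, finprod_one]

theorem artinI_one : artinI K L (1 : Ideal (𝓞 K)) = 1 := by
  rw [Ideal.one_eq_top]; exact artinI_top L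

/-- **Multiplicativity** of the Artin symbol on nonzero integral ideals. -/
theorem artinI_mul {I J : Ideal (𝓞 K)} (hI : I ≠ ⊥) (hJ : J ≠ ⊥) :
    artinI K L (I * J) = artinI K L I * artinI K L J := by
  rw [← artin_unitOfIdeal K L I hI, ← artin_unitOfIdeal K L J hJ, ← map_mul,
    ← artin_unitOfIdeal K L (I * J) (mul_ne_zero hI hJ)]
  congr 1
  apply Units.ext
  simp only [coe_unitOfIdeal, Units.val_mul, FractionalIdeal.coeIdeal_mul]

theorem artinI_pow (I : Ideal (𝓞 K)) (hI : I ≠ ⊥) (n : ℕ) :
    artinI K L (I ^ n) = artinI K L I ^ n := by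
  induction n with
  | zero => rw [pow_zero, pow_zero]; exact artinI_one L
  | succ n ih => rw [pow_succ, pow_succ, artinI_mul L (pow_ne_zero n hI) hI, ih]

/-- The Artin symbol of a prime is its Frobenius. -/
theorem artinI_prime (v : HeightOneSpectrum (𝓞 K)) : artinI K L v.asIdeal = frobAt K L v := by
  classical
  rw [artinI_def, finprod_eq_single _ v]
  · rw [FractionalIdeal.count_self, zpow_one]
  · intro w hw
    rw [FractionalIdeal.count_maximal_coprime K w (Ne.symm hw), zpow_zero]

theorem artin_prime (v : HeightOneSpectrum (𝓞 K)) :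
    artin K L (unitOfIdeal K v.asIdeal v.ne_bot) = frobAt K L v := by
  rw [artin_unitOfIdeal]; exact artinI_prime L v

theorem artinI_prod {ι : Type*} (s : Finset ι) (I : ι → Ideal (𝓞 K)) (hI : ∀ i ∈ s, I i ≠ ⊥) :
    artinI K L (∏ i ∈ s, I i) = ∏ i ∈ s, artinI K L (I i) := by
  classical
  induction s using Finset.induction_on with
  | empty => rw [Finset.prod_empty, Finset.prod_empty]; exact artinI_one L
  | insert a s ha ih =>
    rw [Finset.prod_insert ha, Finset.prod_insert ha,
      artinI_mul L (hI a (Finset.mem_insert_self a s))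
        (Finset.prod_ne_zero_iff.mpr fun i hi => hI i (Finset.mem_insert_of_mem hi)),
      ih fun i hi => hI i (Finset.mem_insert_of_mem hi)]

end artin

section norms

variable {K : Type*} (L : Type*) [Field K] [NumberField K] [Field L] [NumberField L] [Algebra K L]
  [IsGalois K L] [IsMulCommutative Gal(L/K)]

/-- The prime of `K` below a nonzero prime of `L`. -/
def primeUnder (Q : Ideal (𝓞 L)) [Q.IsPrime] (hQ : Q ≠ ⊥) : HeightOneSpectrum (𝓞 K) where
  asIdeal := Q.under (𝓞 K)
  isPrime := inferInstance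
  ne_bot := by
    intro h
    exact hQ (Ideal.eq_bot_of_comap_eq_bot h)

instance liesOver_primeUnder (Q : Ideal (𝓞 L)) [Q.IsPrime] (hQ : Q ≠ ⊥) :
    Q.LiesOver (primeUnder (K := K) L Q hQ).asIdeal := ⟨rfl⟩

/-- `frobAt K L v ^ f(Q | v) = 1` for EVERY prime `Q` above `v` (ramified or not). -/
theorem frobAt_pow_inertiaDeg' (v : HeightOneSpectrum (𝓞 K)) (Q : Ideal (𝓞 L)) [Q.IsPrime]
    [Q.LiesOver v.asIdeal] : frobAt K L v ^ Q.inertiaDeg (𝓞 K) = 1 := by
  by_cases hv : Algebra.IsUnramifiedIn (𝓞 L) v.asIdeal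
  · exact frobAt_pow_inertiaDeg hv Q
  · rw [frobAt_of_ramified hv, one_pow]

/-- The relative norm of a prime. -/
theorem relNorm_prime (v : HeightOneSpectrum (𝓞 K)) (Q : Ideal (𝓞 L)) [Q.IsPrime]
    [Q.LiesOver v.asIdeal] :
    Ideal.relNorm (𝓞 K) Q = v.asIdeal ^ Q.inertiaDeg (𝓞 K) := by
  have hQmax : Q.IsMaximal := Ring.DimensionLEOne.maximalOfPrime (ne_bot_of_liesOver v Q) ‹_›
  exact Ideal.relNorm_eq_pow_of_isMaximal Q v.asIdeal

/-- **(N)** for primes. -/
theorem artinI_relNorm_prime (Q : Ideal (𝓞 L)) [Q.IsPrime] (hQ : Q ≠ ⊥) :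
    artinI K L (Ideal.relNorm (𝓞 K) Q) = 1 := by
  rw [relNorm_prime L (primeUnder L Q hQ) Q, artinI_pow L _ (primeUnder L Q hQ).ne_bot,
    artinI_prime, frobAt_pow_inertiaDeg']

/-- **(N)** The relative norm of every ideal of `L` has trivial Artin symbol. -/
theorem artinI_relNorm (𝔄 : Ideal (𝓞 L)) : artinI K L (Ideal.relNorm (𝓞 K) 𝔄) = 1 := by
  induction 𝔄 using UniqueFactorizationMonoid.induction_on_prime with
  | h₁ => rw [Ideal.zero_eq_bot, Ideal.relNorm_bot]; exact artinI_bot L
  | h₂ I hI =>
    rw [Ideal.isUnit_iff] at hI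
    rw [hI, Ideal.relNorm_top]
    exact artinI_top L
  | h₃ I Q hI hQ ih =>
    have hQ0 : Q ≠ ⊥ := hQ.ne_zero
    have hQp : Q.IsPrime := Ideal.isPrime_of_prime hQ
    rw [map_mul, artinI_mul L (by rwa [Ne, Ideal.relNorm_eq_bot_iff])
      (by rwa [Ne, Ideal.relNorm_eq_bot_iff]), ih, mul_one]
    exact artinI_relNorm_prime L Q hQ0

/-- A nonzero prime ideal of `𝓞 K` as an element of the height one spectrum. -/
def primeOfIdeal (P : Ideal (𝓞 K)) (hP : Prime P) : HeightOneSpectrum (𝓞 K) where
  asIdeal := P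
  isPrime := Ideal.isPrime_of_prime hP
  ne_bot := hP.ne_zero

/-- Induction principle: a property of nonzero integral ideals which holds for the unit ideal and
is stable under multiplication by a prime holds for all nonzero ideals. -/
theorem ideal_induction {P : Ideal (𝓞 K) → Prop} (h1 : P ⊤)
    (hmul : ∀ (v : HeightOneSpectrum (𝓞 K)) (J : Ideal (𝓞 K)), J ≠ ⊥ → P J → P (v.asIdeal * J))
    (I : Ideal (𝓞 K)) (hI : I ≠ ⊥) : P I := by
  induction I using UniqueFactorizationMonoid.induction_on_prime with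
  | h₁ => exact absurd rfl hI
  | h₂ I hI' =>
    rw [Ideal.isUnit_iff] at hI'
    rw [hI']; exact h1
  | h₃ I Q hI' hQ ih =>
    exact hmul (primeOfIdeal Q hQ) I hI' (ih hI')

/-- If all the primes dividing `I` have trivial Frobenius, then `I` has trivial Artin symbol. -/
theorem artinI_eq_one_of_forall (I : Ideal (𝓞 K))
    (h : ∀ v : HeightOneSpectrum (𝓞 K), v.asIdeal ∣ I → frobAt K L v = 1) :
    artinI K L I = 1 := by
  by_cases hI : I = ⊥
  · rw [hI]; exact artinI_bot L
  revert h
  refine ideal_induction (P := fun I => (∀ v : HeightOneSpectrum (𝓞 K), v.asIdeal ∣ I →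
    frobAt K L v = 1) → artinI K L I = 1) (fun _ => artinI_top L) ?_ I hI
  intro v J hJ ih h
  rw [artinI_mul L v.ne_bot hJ, artinI_prime, h v (Dvd.intro _ rfl),
    ih fun w hw => h w (Dvd.dvd.mul_left hw _), one_mul]

/-- **(F7')** Cyclotomic formula for the Artin symbol: if `ζ ∈ 𝓞 L` is an `m`-th root of unity and
all the primes dividing `I` are unramified in `L` and prime to `m`, then the Artin symbol of `I`
raises `ζ` to the power `N(I)`. -/
theorem artinI_smul_of_pow_eq_one {ζ : 𝓞 L} {m : ℕ} (hζ : ζ ^ m = 1) (I : Ideal (𝓞 K))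
    (hI : I ≠ ⊥)
    (h : ∀ v : HeightOneSpectrum (𝓞 K), v.asIdeal ∣ I →
      Algebra.IsUnramifiedIn (𝓞 L) v.asIdeal ∧ (m : 𝓞 K) ∉ v.asIdeal) :
    artinI K L I • ζ = ζ ^ Ideal.absNorm I := by
  revert h
  refine ideal_induction (P := fun I => (∀ v : HeightOneSpectrum (𝓞 K), v.asIdeal ∣ I →
    Algebra.IsUnramifiedIn (𝓞 L) v.asIdeal ∧ (m : 𝓞 K) ∉ v.asIdeal) →
      artinI K L I • ζ = ζ ^ Ideal.absNorm I) ?_ ?_ I hI
  · intro _
    rw [artinI_top, one_smul, Ideal.absNorm_top, pow_one]
  · intro v J hJ ih h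
    obtain ⟨hv, hm⟩ := h v (Dvd.intro _ rfl)
    rw [artinI_mul L v.ne_bot hJ, artinI_prime, mul_smul,
      ih fun w hw => h w (Dvd.dvd.mul_left hw _), smul_pow',
      frobAt_smul_of_pow_eq_one hv hζ hm, map_mul, ← pow_mul, Ideal.absNorm_apply]
    rfl

variable (K) in
/-- The principal fractional ideal generated by a nonzero element of `K`, as a unit. -/
def principalUnit (x : K) (hx : x ≠ 0) : (FractionalIdeal (𝓞 K)⁰ K)ˣ :=
  Units.mk0 (FractionalIdeal.spanSingleton (𝓞 K)⁰ x)
    (by rwa [Ne, FractionalIdeal.spanSingleton_eq_zero_iff])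

/-- The Artin symbol of an integral principal ideal, fractional and integral versions. -/
theorem artin_principalUnit_algebraMap (a : 𝓞 K) (ha : a ≠ 0) :
    artin K L (principalUnit K (algebraMap (𝓞 K) K a)
      (by rwa [Ne, FaithfulSMul.algebraMap_eq_zero_iff])) = artinI K L (Ideal.span {a}) := by
  rw [← artin_unitOfIdeal K L (Ideal.span {a})
    (by rwa [Ne, Ideal.span_singleton_eq_bot])]
  congr 1
  apply Units.ext
  simp only [principalUnit, Units.val_mk0, coe_unitOfIdeal,
    FractionalIdeal.coeIdeal_span_singleton]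

/-- If all integral principal ideals have trivial Artin symbol, so have all principal fractional
ideals. -/
theorem artin_principalUnit_eq_one
    (h : ∀ a : 𝓞 K, a ≠ 0 → artinI K L (Ideal.span {a}) = 1) (x : K) (hx : x ≠ 0) :
    artin K L (principalUnit K x hx) = 1 := by
  obtain ⟨a, b, hb, hab⟩ := IsFractionRing.div_surjective (A := 𝓞 K) x
  have hb0 : b ≠ 0 := nonZeroDivisors.ne_zero hb
  have ha0 : a ≠ 0 := by
    rintro rfl
    rw [map_zero, zero_div] at hab
    exact hx hab.symm
  have hb0' : algebraMap (𝓞 K) K b ≠ 0 := by rwa [Ne, FaithfulSMul.algebraMap_eq_zero_iff]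
  have ha0' : algebraMap (𝓞 K) K a ≠ 0 := by rwa [Ne, FaithfulSMul.algebraMap_eq_zero_iff]
  have key : principalUnit K x hx * principalUnit K (algebraMap (𝓞 K) K b) hb0' =
      principalUnit K (algebraMap (𝓞 K) K a) ha0' := by
    apply Units.ext
    simp only [principalUnit, Units.val_mul, Units.val_mk0,
      FractionalIdeal.spanSingleton_mul_spanSingleton]
    congr 1
    rw [← hab, div_mul_cancel₀ _ hb0']
  have h2 := congrArg (artin K L) key
  rw [map_mul, artin_principalUnit_algebraMap L b hb0, artin_principalUnit_algebraMap L a ha0,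
    h a ha0, h b hb0, mul_one] at h2
  exact h2

end norms

end Fermat.Agent.S14x.Art.H28
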