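import Mathlib
import Fermat.Agent.S14x.Asm.Defs
import Fermat.Agent.S14x.Art.H28_Artin

/-!
# S14 / [ART]: bridge between the inertia vocabulary of `Asm/Defs` and Mathlib (helper25)
-/

set_option autoImplicit false
set_option linter.unusedSectionVars false
set_option linter.style.haveILetI false

open NumberField IsDedekindDomain
open scoped Pointwise

noncomputable section

namespace Fermat.Agent.S14x.Art.H25

variable {K L : Type} [Field K] [NumberField K] [Field L] [NumberField L] [Algebra K L]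
  [IsGalois K L]

/-- A nonzero prime of `𝓞 K` below a prime `P` of `𝓞 L` is `P ∩ 𝓞 K`. -/
theorem under_eq_of_le {𝔭 : Ideal (𝓞 K)} (h𝔭 : 𝔭.IsPrime) (h0 : 𝔭 ≠ ⊥) (P : Ideal (𝓞 L))
    [hP : P.IsPrime] (h : 𝔭 ≤ P.under (𝓞 K)) : P.under (𝓞 K) = 𝔭 := by
  have hmax : 𝔭.IsMaximal := Ring.DimensionLEOne.maximalOfPrime h0 h𝔭
  have hne : P.under (𝓞 K) ≠ ⊤ := (Ideal.IsPrime.under (𝓞 K) P).ne_top
  exact (hmax.eq_of_le hne h).symm

/-- Trivial inertia group ⇒ ramification index one. -/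
theorem ramificationIdx_eq_one_of_inertia (P : Ideal (𝓞 L)) [hP : P.IsPrime] (_hP0 : P ≠ ⊥)
    (h : ∀ σ : Gal(L/K), (∀ x : 𝓞 L, σ • x - x ∈ P) → σ = 1) :
    P.ramificationIdx (𝓞 K) = 1 := by
  have hbot : P.inertia Gal(L/K) = ⊥ := by
    rw [eq_bot_iff]
    intro σ hσ
    rw [Subgroup.mem_bot]
    exact h σ hσ
  have hcard : Nat.card (P.inertia Gal(L/K)) = 1 := by
    rw [hbot]; exact Subgroup.card_bot
  have h1 := Ideal.card_inertia_eq_ramificationIdxIn (G := Gal(L/K)) (P.under (𝓞 K)) P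
  rw [Ideal.ramificationIdxIn_eq_ramificationIdx (P.under (𝓞 K)) P Gal(L/K)] at h1
  rw [← h1, hcard]

/-- Trivial inertia group ⇒ unramified (Mathlib sense). -/
theorem isUnramifiedAt_of_inertia (P : Ideal (𝓞 L)) [hP : P.IsPrime] (hP0 : P ≠ ⊥)
    (h : ∀ σ : Gal(L/K), (∀ x : 𝓞 L, σ • x - x ∈ P) → σ = 1) :
    Algebra.IsUnramifiedAt (𝓞 K) P :=
  Ideal.ramificationIdx_eq_one_iff.mp (ramificationIdx_eq_one_of_inertia P hP0 h)

/-- Unramified (Mathlib sense) ⇒ trivial inertia group. -/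
theorem inertia_trivial_of_isUnramifiedAt (P : Ideal (𝓞 L)) [hP : P.IsPrime]
    [hu : Algebra.IsUnramifiedAt (𝓞 K) P] (σ : Gal(L/K)) (hσ : ∀ x : 𝓞 L, σ • x - x ∈ P) :
    σ = 1 := by
  have h1 := Ideal.card_inertia_eq_ramificationIdxIn (G := Gal(L/K)) (P.under (𝓞 K)) P
  rw [Ideal.ramificationIdxIn_eq_ramificationIdx (P.under (𝓞 K)) P Gal(L/K),
    Ideal.ramificationIdx_eq_one_of_isUnramifiedAt] at h1
  have hbot : P.inertia Gal(L/K) = ⊥ := Subgroup.card_eq_one.mp h1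
  have hmem : σ ∈ P.inertia Gal(L/K) := hσ
  rw [hbot, Subgroup.mem_bot] at hmem
  exact hmem

/-- **(b1)** `Asm.InertiaTrivialAt` ⇒ Mathlib's `Algebra.IsUnramifiedIn`. -/
theorem isUnramifiedIn_of_inertiaTrivialAt {𝔭 : Ideal (𝓞 K)} (h0 : 𝔭 ≠ ⊥)
    (h : Asm.InertiaTrivialAt K L 𝔭) : Algebra.IsUnramifiedIn (𝓞 L) 𝔭 := by
  intro P hP hPp
  have hP0 : P ≠ ⊥ := Ideal.ne_bot_of_liesOver_of_ne_bot h0 P
  exact isUnramifiedAt_of_inertia P hP0 (h P hP hP0 (by rw [← hPp.over]))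

/-- **(b1')** Mathlib's `Algebra.IsUnramifiedIn` ⇒ `Asm.InertiaTrivialAt`, for a nonzero prime. -/
theorem inertiaTrivialAt_of_isUnramifiedIn {𝔭 : Ideal (𝓞 K)} (h𝔭 : 𝔭.IsPrime) (h0 : 𝔭 ≠ ⊥)
    (h : Algebra.IsUnramifiedIn (𝓞 L) 𝔭) : Asm.InertiaTrivialAt K L 𝔭 := by
  intro P hP hP0 hle σ hσ
  have hu : Algebra.IsUnramifiedAt (𝓞 K) P := h P hP ⟨(under_eq_of_le h𝔭 h0 P hle).symm⟩
  exact inertia_trivial_of_isUnramifiedAt P σ hσ

/-- `Asm.UnramifiedEverywhere` ⇒ every ramification index is one. -/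
theorem ramificationIdx_eq_one_of_unramifiedEverywhere (h : Asm.UnramifiedEverywhere K L)
    (P : Ideal (𝓞 L)) [hP : P.IsPrime] (hP0 : P ≠ ⊥) : P.ramificationIdx (𝓞 K) = 1 :=
  ramificationIdx_eq_one_of_inertia P hP0 (h P hP hP0)

/-- `Asm.UnramifiedEverywhere` ⇒ every prime of `K` is unramified in `L` (Mathlib sense). -/
theorem isUnramifiedIn_of_unramifiedEverywhere (h : Asm.UnramifiedEverywhere K L)
    (𝔭 : Ideal (𝓞 K)) (h0 : 𝔭 ≠ ⊥) : Algebra.IsUnramifiedIn (𝓞 L) 𝔭 := by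
  intro P hP hPp
  have hP0 : P ≠ ⊥ := Ideal.ne_bot_of_liesOver_of_ne_bot h0 P
  exact isUnramifiedAt_of_inertia P hP0 (h P hP hP0)

/-- `Asm.UnramifiedEverywhere K L ↔ Asm.UnramifiedOutside K L ⊤`. -/
theorem unramifiedOutside_top_of_unramifiedEverywhere (h : Asm.UnramifiedEverywhere K L) :
    Asm.UnramifiedOutside K L ⊤ := by
  intro 𝔭 _ _ _ P hP hP0 _ σ hσ
  exact h P hP hP0 σ hσ


/-! ### (b2) `Asm.IsFrobAt` versus Mathlib's `IsArithFrobAt` -/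

/-- `Asm.IsFrobAt` at `𝔭` ⇒ Frobenius (Mathlib sense) at every prime above `𝔭`. -/
theorem isArithFrobAt_of_isFrobAt {𝔭 : Ideal (𝓞 K)} {σ : Gal(L/K)}
    (h : Asm.IsFrobAt K L 𝔭 σ) (Q : Ideal (𝓞 L)) [hQ : Q.LiesOver 𝔭] :
    IsArithFrobAt (𝓞 K) σ Q := by
  intro x
  have hle : 𝔭.map (algebraMap (𝓞 K) (𝓞 L)) ≤ Q := by
    rw [Ideal.map_le_iff_le_comap]
    exact hQ.over.le
  have := hle (h x)
  rw [← hQ.over]
  exact this

/-- The extension of an unramified prime is the intersection of the primes above it. -/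
theorem mem_map_of_forall_mem {𝔭 : Ideal (𝓞 K)} (h𝔭 : 𝔭.IsPrime) (h0 : 𝔭 ≠ ⊥)
    (hun : Algebra.IsUnramifiedIn (𝓞 L) 𝔭) {y : 𝓞 L}
    (h : ∀ Q : Ideal (𝓞 L), Q.IsPrime → Q.LiesOver 𝔭 → y ∈ Q) :
    y ∈ 𝔭.map (algebraMap (𝓞 K) (𝓞 L)) := by
  classical
  have hmax : 𝔭.IsMaximal := Ring.DimensionLEOne.maximalOfPrime h0 h𝔭
  rw [Ideal.map_algebraMap_eq_finsetProd_pow (R := 𝓞 L) h0]
  have h1 : ∀ P ∈ (𝔭.primesOver (𝓞 L)).toFinset, P ^ P.ramificationIdx (𝓞 K) = P := by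
    intro P hP
    rw [Set.mem_toFinset] at hP
    have : P.IsPrime := hP.1
    have hlo : P.LiesOver 𝔭 := hP.2
    rw [hun.ramificationIdx_eq_one hlo, pow_one]
  rw [Finset.prod_congr rfl h1, Ideal.prod_eq_iInf_of_pairwise_isCoprime]
  · simp only [Ideal.mem_iInf]
    intro P hP
    rw [Set.mem_toFinset] at hP
    exact h P hP.1 hP.2
  · intro P hP P' hP' hne
    rw [Finset.mem_coe, Set.mem_toFinset] at hP hP'
    have hPp : P.IsPrime := hP.1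
    have hPp' : P'.IsPrime := hP'.1
    have hlo : P.LiesOver 𝔭 := hP.2
    have hlo' : P'.LiesOver 𝔭 := hP'.2
    have hPm : P.IsMaximal := Ring.DimensionLEOne.maximalOfPrime
      (Ideal.ne_bot_of_liesOver_of_ne_bot h0 P) hPp
    have hPm' : P'.IsMaximal := Ring.DimensionLEOne.maximalOfPrime
      (Ideal.ne_bot_of_liesOver_of_ne_bot h0 P') hPp'
    show IsCoprime P P'
    rw [Ideal.isCoprime_iff_sup_eq]
    exact Ideal.IsMaximal.coprime_of_ne hPm hPm' hne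

/-- For an unramified prime `𝔭`: Frobenius (Mathlib sense) at every prime above `𝔭` ⇒
`Asm.IsFrobAt` at `𝔭`. -/
theorem isFrobAt_of_forall {𝔭 : Ideal (𝓞 K)} (h𝔭 : 𝔭.IsPrime) (h0 : 𝔭 ≠ ⊥)
    (hun : Algebra.IsUnramifiedIn (𝓞 L) 𝔭) {σ : Gal(L/K)}
    (h : ∀ Q : Ideal (𝓞 L), Q.IsPrime → Q.LiesOver 𝔭 → IsArithFrobAt (𝓞 K) σ Q) :
    Asm.IsFrobAt K L 𝔭 σ := by
  intro x
  apply mem_map_of_forall_mem h𝔭 h0 hun
  intro Q hQ hlo
  have := h Q hQ hlo x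
  rw [← hlo.over] at this
  exact this

/-! ### (b3) uniqueness of the Frobenius in the `Asm` vocabulary -/

/-- A nonzero prime ideal as an element of the height-one spectrum. -/
def toHOS (𝔭 : Ideal (𝓞 K)) (h𝔭 : 𝔭.IsPrime) (h0 : 𝔭 ≠ ⊥) : HeightOneSpectrum (𝓞 K) :=
  ⟨𝔭, h𝔭, h0⟩

@[simp] theorem toHOS_asIdeal (𝔭 : Ideal (𝓞 K)) (h𝔭 : 𝔭.IsPrime) (h0 : 𝔭 ≠ ⊥) :
    (toHOS 𝔭 h𝔭 h0).asIdeal = 𝔭 := rfl

/-- **(b3)** At a prime with trivial inertia the Frobenius (in the sense of `Asm.IsFrobAt`) is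
unique. No commutativity needed. -/
theorem isFrobAt_unique {𝔭 : Ideal (𝓞 K)} (h𝔭 : 𝔭.IsPrime) (h0 : 𝔭 ≠ ⊥)
    (hun : Asm.InertiaTrivialAt K L 𝔭) {σ τ : Gal(L/K)}
    (hσ : Asm.IsFrobAt K L 𝔭 σ) (hτ : Asm.IsFrobAt K L 𝔭 τ) : σ = τ := by
  obtain ⟨Q, hQ, hlo⟩ := H28.exists_primeOver L (toHOS 𝔭 h𝔭 h0)
  have hlo' : Q.LiesOver 𝔭 := hlo
  have hQ0 : Q ≠ ⊥ := Ideal.ne_bot_of_liesOver_of_ne_bot h0 Q
  have hu : Algebra.IsUnramifiedAt (𝓞 K) Q :=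
    isUnramifiedAt_of_inertia Q hQ0 (hun Q hQ hQ0 (by rw [← hlo'.over]))
  exact H28.frob_unique Q (isArithFrobAt_of_isFrobAt hσ Q) (isArithFrobAt_of_isFrobAt hτ Q)

/-- `Asm.UnramifiedEverywhere` version of the uniqueness. -/
theorem isFrobAt_unique_of_unramifiedEverywhere (hun : Asm.UnramifiedEverywhere K L)
    {𝔭 : Ideal (𝓞 K)} (h𝔭 : 𝔭.IsPrime) (h0 : 𝔭 ≠ ⊥) {σ τ : Gal(L/K)}
    (hσ : Asm.IsFrobAt K L 𝔭 σ) (hτ : Asm.IsFrobAt K L 𝔭 τ) : σ = τ :=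
  isFrobAt_unique h𝔭 h0 (fun P hP hP0 _ => hun P hP hP0) hσ hτ

/-! ### (b4) every Artin map is `H28.artinI` away from the modulus -/

section abelian

open scoped IsMulCommutative

variable [IsMulCommutative Gal(L/K)]

/-- For an unramified prime, `H28.frobAt` is a Frobenius in the sense of `Asm.IsFrobAt`. -/
theorem isFrobAt_frobAt {𝔭 : Ideal (𝓞 K)} (h𝔭 : 𝔭.IsPrime) (h0 : 𝔭 ≠ ⊥)
    (hun : Asm.InertiaTrivialAt K L 𝔭) :
    Asm.IsFrobAt K L 𝔭 (H28.frobAt K L (toHOS 𝔭 h𝔭 h0)) := by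
  have hu : Algebra.IsUnramifiedIn (𝓞 L) 𝔭 := isUnramifiedIn_of_inertiaTrivialAt h0 hun
  refine isFrobAt_of_forall h𝔭 h0 hu ?_
  intro Q hQ hlo
  have hlo' : Q.LiesOver (toHOS 𝔭 h𝔭 h0).asIdeal := hlo
  exact H28.frobAt_spec (v := toHOS 𝔭 h𝔭 h0) hu Q

/-- For an unramified prime, every Frobenius in the sense of `Asm.IsFrobAt` is `H28.frobAt`. -/
theorem eq_frobAt_of_isFrobAt {𝔭 : Ideal (𝓞 K)} (h𝔭 : 𝔭.IsPrime) (h0 : 𝔭 ≠ ⊥)
    (hun : Asm.InertiaTrivialAt K L 𝔭) {σ : Gal(L/K)} (hσ : Asm.IsFrobAt K L 𝔭 σ) :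
    σ = H28.frobAt K L (toHOS 𝔭 h𝔭 h0) :=
  isFrobAt_unique h𝔭 h0 hun hσ (isFrobAt_frobAt h𝔭 h0 hun)

/-- `H28.artinI` is an Artin map away from `𝔪` in the sense of `Asm.IsArtinMap`. -/
theorem isArtinMap_artinI (𝔪 : Ideal (𝓞 K)) (hun : Asm.UnramifiedOutside K L 𝔪) :
    Asm.IsArtinMap K L 𝔪 (fun I => H28.artinI K L I) where
  map_one := H28.artinI_top L
  map_mul 𝔞 𝔟 h𝔞 h𝔟 _ _ := H28.artinI_mul L h𝔞 h𝔟
  frob 𝔭 h𝔭 h0 hcop := by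
    have := isFrobAt_frobAt h𝔭 h0 (hun 𝔭 h𝔭 h0 hcop)
    rw [← H28.artinI_prime] at this
    exact this

/-- **(b4)** Every Artin map away from `𝔪` agrees with `H28.artinI` on the nonzero ideals prime to
`𝔪`. -/
theorem eq_artinI {𝔪 : Ideal (𝓞 K)} (hun : Asm.UnramifiedOutside K L 𝔪)
    {Φ : Ideal (𝓞 K) → Gal(L/K)} (hΦ : Asm.IsArtinMap K L 𝔪 Φ)
    (I : Ideal (𝓞 K)) (hI : I ≠ ⊥) (hcop : I ⊔ 𝔪 = ⊤) : Φ I = H28.artinI K L I := by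
  revert hcop
  refine H28.ideal_induction (P := fun I => I ⊔ 𝔪 = ⊤ → Φ I = H28.artinI K L I) ?_ ?_ I hI
  · intro _
    rw [hΦ.map_one, H28.artinI_top]
  · intro v J hJ ih hcop
    have hv : v.asIdeal ⊔ 𝔪 = ⊤ :=
      top_le_iff.mp (hcop ▸ sup_le_sup_right Ideal.mul_le_left 𝔪)
    have hJc : J ⊔ 𝔪 = ⊤ :=
      top_le_iff.mp (hcop ▸ sup_le_sup_right Ideal.mul_le_right 𝔪)
    rw [hΦ.map_mul _ _ v.ne_bot hJ hv hJc, H28.artinI_mul L v.ne_bot hJ, ih hJc]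
    congr 1
    rw [H28.artinI_prime]
    exact eq_frobAt_of_isFrobAt v.isPrime v.ne_bot (hun _ v.isPrime v.ne_bot hv)
      (hΦ.frob _ v.isPrime v.ne_bot hv)

/-- Two Artin maps away from `𝔪` agree on the nonzero ideals prime to `𝔪`. -/
theorem isArtinMap_unique {𝔪 : Ideal (𝓞 K)} (hun : Asm.UnramifiedOutside K L 𝔪)
    {Φ Ψ : Ideal (𝓞 K) → Gal(L/K)} (hΦ : Asm.IsArtinMap K L 𝔪 Φ) (hΨ : Asm.IsArtinMap K L 𝔪 Ψ)
    (I : Ideal (𝓞 K)) (hI : I ≠ ⊥) (hcop : I ⊔ 𝔪 = ⊤) : Φ I = Ψ I := by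
  rw [eq_artinI hun hΦ I hI hcop, eq_artinI hun hΨ I hI hcop]

end abelian

/-- Commutativity as an instance, from the hypothesis of the `Asm` statements. -/
theorem isMulCommutative_of (hab : ∀ σ τ : L ≃ₐ[K] L, σ * τ = τ * σ) :
    IsMulCommutative Gal(L/K) := ⟨⟨hab⟩⟩

end Fermat.Agent.S14x.Art.H25

namespace Fermat.Agent.S14x.Art

open Fermat.Agent.S14x.Art.H25

/-- **Deliverable of ART**: existence of the Artin map (`Asm.StArtinExists`, verbatim). -/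
theorem stArtinExists : Asm.StArtinExists := by
  intro K L _ _ _ _ _ _ hab 𝔪 hun
  haveI := isMulCommutative_of hab
  exact ⟨fun I => H28.artinI K L I, isArtinMap_artinI 𝔪 hun⟩

/-- **Deliverable of ART**: (N) norms are in the kernel (`Asm.StN`, verbatim). -/
theorem stN : Asm.StN := by
  intro K L _ _ _ _ _ _ hab 𝔪 hun Φ hΦ 𝔄 h𝔄 hcop
  haveI := isMulCommutative_of hab
  rw [eq_artinI hun hΦ _ (by rwa [Ne, Ideal.relNorm_eq_bot_iff]) hcop]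
  exact H28.artinI_relNorm L 𝔄

end Fermat.Agent.S14x.Art
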