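import Mathlib
import Fermat.Agent.S14x.Asm.Defs
import Fermat.Agent.S14x.Art.H28_Artin
import Fermat.Agent.S14x.Art.H10_FrobFunct
import Fermat.Agent.S14x.Art.H25_Bridge

/-!
# S14 / [ART]: the Artin map is compatible with restriction to a subextension (helper25)

Tower `E ≤ M ≤ C` of number fields, `M / E` and `C / E` Galois with commutative Galois groups.

* `isUnramifiedIn_of_tower`: a prime of `E` unramified in `C` is unramified in `M`;
* `unramifiedOutside_of_tower`: `Asm.UnramifiedOutside E C 𝔪 → Asm.UnramifiedOutside E M 𝔪`;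
* `frobAt_restrict`: `(frobAt E C v)|_M = frobAt E M v` for `v` unramified in `C`;
* `artinI_restrict`: `(artinI E C 𝔞)|_M = artinI E M 𝔞` for `𝔞 ≠ ⊥` with all prime factors
  unramified in `C`;
* `isArtinMap_restrict`: the same for arbitrary Artin maps in the sense of `Asm.IsArtinMap`.
-/

set_option autoImplicit false
set_option linter.unusedSectionVars false
set_option linter.style.haveILetI false

open NumberField IsDedekindDomain
open scoped Pointwise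

noncomputable section

namespace Fermat.Agent.S14x.Art.H25

section tower

variable {E M C : Type*} [Field E] [NumberField E] [Field M] [NumberField M] [Field C]
  [NumberField C] [Algebra E M] [Algebra M C] [Algebra E C] [IsScalarTower E M C]

/-- **(R1)** A prime of `E` which is unramified in `C` is unramified in every subextension `M`. -/
theorem isUnramifiedIn_of_tower {𝔭 : Ideal (𝓞 E)}
    (h : Algebra.IsUnramifiedIn (𝓞 C) 𝔭) : Algebra.IsUnramifiedIn (𝓞 M) 𝔭 := by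
  intro P hP hlo
  obtain ⟨⟨Q, hQ, hQP⟩⟩ := (inferInstance : Nonempty (P.primesOver (𝓞 C)))
  have hQ𝔭 : Q.LiesOver 𝔭 := Ideal.LiesOver.trans Q P 𝔭
  have hu : Algebra.IsUnramifiedAt (𝓞 E) Q := h Q hQ hQ𝔭
  exact Algebra.IsUnramifiedAt.of_liesOver (𝓞 E) P Q

end tower

section galois

open scoped IsMulCommutative

variable {E M C : Type*} [Field E] [NumberField E] [Field M] [NumberField M] [Field C]
  [NumberField C] [Algebra E M] [Algebra M C] [Algebra E C] [IsScalarTower E M C]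
  [IsGalois E M] [IsGalois E C] [IsMulCommutative Gal(M/E)] [IsMulCommutative Gal(C/E)]

/-- **(R2)** The restriction to `M` of the Frobenius of `v` in `C / E` is the Frobenius of `v` in
`M / E` (`v` unramified in `C`). -/
theorem frobAt_restrict {v : HeightOneSpectrum (𝓞 E)}
    (hv : Algebra.IsUnramifiedIn (𝓞 C) v.asIdeal) :
    AlgEquiv.restrictNormalHom M (H28.frobAt E C v) = H28.frobAt E M v := by
  have hQ : IsArithFrobAt (𝓞 E) (H28.frobAt E C v) (H28.primeOver C v) :=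
    H28.frobAt_spec hv (H28.primeOver C v)
  have hres := H10.h10_isArithFrobAt_restrict (F := M) hQ
  haveI : ((H28.primeOver C v).under (𝓞 M)).IsPrime := Ideal.IsPrime.under (𝓞 M) _
  haveI : ((H28.primeOver C v).under (𝓞 M)).LiesOver v.asIdeal :=
    ⟨by rw [Ideal.under_under]; exact Ideal.over_def (H28.primeOver C v) v.asIdeal⟩
  exact H28.eq_frobAt (isUnramifiedIn_of_tower hv) ((H28.primeOver C v).under (𝓞 M)) hres

/-- **(R3)** The restriction to `M` of the Artin symbol of `𝔞` in `C / E` is the Artin symbol of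
`𝔞` in `M / E`, if all the primes dividing `𝔞` are unramified in `C`. -/
theorem artinI_restrict (𝔞 : Ideal (𝓞 E)) (h𝔞 : 𝔞 ≠ ⊥)
    (hun : ∀ v : HeightOneSpectrum (𝓞 E), 𝔞 ≤ v.asIdeal →
      Algebra.IsUnramifiedIn (𝓞 C) v.asIdeal) :
    AlgEquiv.restrictNormalHom M (H28.artinI E C 𝔞) = H28.artinI E M 𝔞 := by
  revert hun
  refine H28.ideal_induction (P := fun 𝔞 => (∀ v : HeightOneSpectrum (𝓞 E), 𝔞 ≤ v.asIdeal →
      Algebra.IsUnramifiedIn (𝓞 C) v.asIdeal) →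
      AlgEquiv.restrictNormalHom M (H28.artinI E C 𝔞) = H28.artinI E M 𝔞) ?_ ?_ 𝔞 h𝔞
  · intro _
    rw [H28.artinI_top, H28.artinI_top, map_one]
  · intro v J hJ ih hun
    rw [H28.artinI_mul C v.ne_bot hJ, H28.artinI_mul M v.ne_bot hJ, map_mul,
      ih (fun w hw => hun w (Ideal.mul_le_right.trans hw)), H28.artinI_prime, H28.artinI_prime,
      frobAt_restrict (hun v Ideal.mul_le_left)]

end galois

section asm

open scoped IsMulCommutative

variable {E M C : Type} [Field E] [NumberField E] [Field M] [NumberField M] [Field C]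
  [NumberField C] [Algebra E M] [Algebra M C] [Algebra E C] [IsScalarTower E M C]
  [IsGalois E M] [IsGalois E C]

/-- **(R1')** `C / E` unramified outside `𝔪` ⇒ `M / E` unramified outside `𝔪`. -/
theorem unramifiedOutside_of_tower {𝔪 : Ideal (𝓞 E)} (h : Asm.UnramifiedOutside E C 𝔪) :
    Asm.UnramifiedOutside E M 𝔪 := by
  intro 𝔭 h𝔭 h0 hcop
  exact inertiaTrivialAt_of_isUnramifiedIn h𝔭 h0
    (isUnramifiedIn_of_tower (C := C) (isUnramifiedIn_of_inertiaTrivialAt h0 (h 𝔭 h𝔭 h0 hcop)))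

/-- `C / E` unramified everywhere ⇒ `M / E` unramified everywhere. -/
theorem unramifiedEverywhere_of_tower (h : Asm.UnramifiedEverywhere E C) :
    Asm.UnramifiedEverywhere E M := by
  intro P hP hP0 σ hσ
  have h𝔭 : (P.under (𝓞 E)).IsPrime := Ideal.IsPrime.under (𝓞 E) P
  have h0 : P.under (𝓞 E) ≠ ⊥ := by
    intro hbot
    exact hP0 (Ideal.eq_bot_of_comap_eq_bot hbot)
  exact inertiaTrivialAt_of_isUnramifiedIn h𝔭 h0
    (isUnramifiedIn_of_tower (C := C) (isUnramifiedIn_of_unramifiedEverywhere h _ h0))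
    P hP hP0 le_rfl σ hσ

/-- **(R4)** Restriction of Artin maps in the sense of `Asm.IsArtinMap`: if `Ψ` is an Artin map of
`C / E` and `Φ` an Artin map of `M / E`, both away from `𝔪`, `C / E` abelian and unramified outside
`𝔪`, then `(Ψ 𝔞)|_M = Φ 𝔞` for every nonzero ideal `𝔞` prime to `𝔪`. -/
theorem isArtinMap_restrict (habM : ∀ σ τ : M ≃ₐ[E] M, σ * τ = τ * σ)
    (habC : ∀ σ τ : C ≃ₐ[E] C, σ * τ = τ * σ) {𝔪 : Ideal (𝓞 E)}
    (hun : Asm.UnramifiedOutside E C 𝔪)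
    {Ψ : Ideal (𝓞 E) → (C ≃ₐ[E] C)} {Φ : Ideal (𝓞 E) → (M ≃ₐ[E] M)}
    (hΨ : Asm.IsArtinMap E C 𝔪 Ψ) (hΦ : Asm.IsArtinMap E M 𝔪 Φ)
    (𝔞 : Ideal (𝓞 E)) (h𝔞 : 𝔞 ≠ ⊥) (hcop : 𝔞 ⊔ 𝔪 = ⊤) :
    AlgEquiv.restrictNormalHom M (Ψ 𝔞) = Φ 𝔞 := by
  haveI := isMulCommutative_of habM
  haveI := isMulCommutative_of habC
  rw [eq_artinI hun hΨ 𝔞 h𝔞 hcop, eq_artinI (unramifiedOutside_of_tower hun) hΦ 𝔞 h𝔞 hcop]
  refine artinI_restrict 𝔞 h𝔞 ?_
  intro v hv
  have hvc : v.asIdeal ⊔ 𝔪 = ⊤ := top_le_iff.mp (hcop ▸ sup_le_sup_right hv 𝔪)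
  exact isUnramifiedIn_of_inertiaTrivialAt v.ne_bot (hun _ v.isPrime v.ne_bot hvc)

/-- **(R4')** Pointwise form of `isArtinMap_restrict`:
`Ψ 𝔞 (algebraMap M C x) = algebraMap M C (Φ 𝔞 x)`. -/
theorem isArtinMap_restrict_apply (habM : ∀ σ τ : M ≃ₐ[E] M, σ * τ = τ * σ)
    (habC : ∀ σ τ : C ≃ₐ[E] C, σ * τ = τ * σ) {𝔪 : Ideal (𝓞 E)}
    (hun : Asm.UnramifiedOutside E C 𝔪)
    {Ψ : Ideal (𝓞 E) → (C ≃ₐ[E] C)} {Φ : Ideal (𝓞 E) → (M ≃ₐ[E] M)}
    (hΨ : Asm.IsArtinMap E C 𝔪 Ψ) (hΦ : Asm.IsArtinMap E M 𝔪 Φ)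
    (𝔞 : Ideal (𝓞 E)) (h𝔞 : 𝔞 ≠ ⊥) (hcop : 𝔞 ⊔ 𝔪 = ⊤) (x : M) :
    Ψ 𝔞 (algebraMap M C x) = algebraMap M C (Φ 𝔞 x) := by
  rw [← isArtinMap_restrict habM habC hun hΨ hΦ 𝔞 h𝔞 hcop]
  exact (AlgEquiv.restrictNormal_commutes (Ψ 𝔞) M x).symm

/-- If the Artin symbol of `𝔞` in `C / E` is trivial, so is the Artin symbol of `𝔞` in `M / E`. -/
theorem isArtinMap_eq_one_of_tower (habM : ∀ σ τ : M ≃ₐ[E] M, σ * τ = τ * σ)
    (habC : ∀ σ τ : C ≃ₐ[E] C, σ * τ = τ * σ) {𝔪 : Ideal (𝓞 E)}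
    (hun : Asm.UnramifiedOutside E C 𝔪)
    {Ψ : Ideal (𝓞 E) → (C ≃ₐ[E] C)} {Φ : Ideal (𝓞 E) → (M ≃ₐ[E] M)}
    (hΨ : Asm.IsArtinMap E C 𝔪 Ψ) (hΦ : Asm.IsArtinMap E M 𝔪 Φ)
    (𝔞 : Ideal (𝓞 E)) (h𝔞 : 𝔞 ≠ ⊥) (hcop : 𝔞 ⊔ 𝔪 = ⊤) (h1 : Ψ 𝔞 = 1) : Φ 𝔞 = 1 := by
  rw [← isArtinMap_restrict habM habC hun hΨ hΦ 𝔞 h𝔞 hcop, h1, map_one]

end asm

end Fermat.Agent.S14x.Art.H25
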