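import Fermat.Agent.S14x.Art.H28_CycUnram
import Fermat.Agent.S14x.Art.H10_FrobFunct

/-!
# S14 / [ART-C]: the cyclotomic formula in consumer shape (helper28)

`E ≤ M ≤ C = E(ζ_m)` number fields, `Φ` an Artin map of `M / E` away from `m`.

* `restrict_frobAt`, `restrict_artinI`   : restriction `Gal(C/E) → Gal(M/E)` of Frobenius /
                                           Artin symbols;
* `isUnramifiedIn_cyclotomic`            : primes not containing `m` are unramified in `C`;
* `artinI_cyclotomic_congr`              : in `C / E` the Artin symbol of an ideal prime to `m`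
                                           depends only on its absolute norm modulo `m`;
* `artinMap_congr_of_absNorm`  **(C1)**  : `N𝔞 ≡ N𝔟 mod m ⇒ Φ 𝔞 = Φ 𝔟`;
* `norm_nonneg_of_isTotallyComplex`, `intNorm_pos_of_isTotallyComplex` : norms are positive on a
                                           totally complex field;
* `intNorm_modEq_of_sub_mem`             : `a ≡ b mod m ⇒ N a ≡ N b mod m`;
* `absNorm_span_modEq`                   : `a ≡ b mod m ⇒ N(a) ≡ N(b) mod m` for absolute norms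
                                           of principal ideals (`E` totally complex);
* `artinMap_span_congr`        **(C2)**  : `a ≡ b mod m`, `(a)` prime to `m`, `E` totally complex
                                           `⇒ Φ (a) = Φ (b)`.
-/

set_option autoImplicit false
set_option linter.unusedSectionVars false
set_option linter.style.haveILetI false

open NumberField IsDedekindDomain
open scoped Pointwise nonZeroDivisors IsMulCommutative

noncomputable section

namespace Fermat.Agent.S14x.Art.H28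

open Fermat.Agent.S14x

section restrict

variable {E M C : Type*} [Field E] [NumberField E] [Field M] [NumberField M] [Field C]
  [NumberField C] [Algebra E M] [Algebra M C] [Algebra E C] [IsScalarTower E M C]
  [IsGalois E C] [IsGalois E M] [IsMulCommutative Gal(C/E)] [IsMulCommutative Gal(M/E)]

/-- **(Res)** for `frobAt`: the restriction to `M` of the Frobenius of `v` in `C / E` is the
Frobenius of `v` in `M / E`. -/
theorem restrict_frobAt (v : HeightOneSpectrum (𝓞 E))
    (hC : Algebra.IsUnramifiedIn (𝓞 C) v.asIdeal) (hM : Algebra.IsUnramifiedIn (𝓞 M) v.asIdeal) :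
    AlgEquiv.restrictNormalHom M (frobAt E C v) = frobAt E M v := by
  have h := H10.h10_isArithFrobAt_restrict (F := M) (frobAt_spec hC (primeOver C v))
  have hlo : ((primeOver C v).under (𝓞 M)).LiesOver v.asIdeal :=
    Ideal.LiesOver.tower_bot (primeOver C v) ((primeOver C v).under (𝓞 M)) v.asIdeal
  exact eq_frobAt hM _ h

/-- **(Res)** for the Artin symbol: restriction to `M` of the Artin symbol of `𝔞` in `C / E` is
the Artin symbol of `𝔞` in `M / E`, if all primes dividing `𝔞` are unramified in `C` and `M`. -/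
theorem restrict_artinI (𝔞 : Ideal (𝓞 E)) (h𝔞 : 𝔞 ≠ ⊥)
    (h : ∀ v : HeightOneSpectrum (𝓞 E), v.asIdeal ∣ 𝔞 →
      Algebra.IsUnramifiedIn (𝓞 C) v.asIdeal ∧ Algebra.IsUnramifiedIn (𝓞 M) v.asIdeal) :
    AlgEquiv.restrictNormalHom M (artinI E C 𝔞) = artinI E M 𝔞 := by
  revert h
  refine ideal_induction (P := fun 𝔞 => (∀ v : HeightOneSpectrum (𝓞 E), v.asIdeal ∣ 𝔞 →
      Algebra.IsUnramifiedIn (𝓞 C) v.asIdeal ∧ Algebra.IsUnramifiedIn (𝓞 M) v.asIdeal) →
    AlgEquiv.restrictNormalHom M (artinI E C 𝔞) = artinI E M 𝔞) ?_ ?_ 𝔞 h𝔞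
  · intro _
    rw [artinI_top, artinI_top, map_one]
  · intro v J hJ ih h
    obtain ⟨hC, hM⟩ := h v (Dvd.intro _ rfl)
    rw [artinI_mul C v.ne_bot hJ, artinI_mul M v.ne_bot hJ, map_mul, artinI_prime, artinI_prime,
      restrict_frobAt v hC hM, ih fun w hw => h w (Dvd.dvd.mul_left hw _)]

end restrict

/-- A prime dividing an ideal prime to `(m)` does not contain `m`. -/
theorem natCast_not_mem_of_dvd {E : Type*} [Field E] [NumberField E] (m : ℕ)
    {𝔞 : Ideal (𝓞 E)} (h : 𝔞 ⊔ Ideal.span {(m : 𝓞 E)} = ⊤) (v : HeightOneSpectrum (𝓞 E))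
    (hv : v.asIdeal ∣ 𝔞) : (m : 𝓞 E) ∉ v.asIdeal := by
  apply natCast_not_mem_of_sup_eq_top m v.isPrime
  rw [eq_top_iff, ← h]
  exact sup_le_sup_right (Ideal.le_of_dvd hv) _

section cyc

variable {E C : Type*} [Field E] [NumberField E] [Field C] [NumberField C] [Algebra E C]
  (m : ℕ) [NeZero m] [IsCyclotomicExtension {m} E C] [IsGalois E C] [IsMulCommutative Gal(C/E)]

/-- In `C = E(ζ_m)` every prime of `E` not containing `m` is unramified. -/
theorem isUnramifiedIn_cyclotomic (v : HeightOneSpectrum (𝓞 E)) (hv : (m : 𝓞 E) ∉ v.asIdeal) :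
    Algebra.IsUnramifiedIn (𝓞 C) v.asIdeal := by
  intro P hP hlo
  refine isUnramifiedAt_of_inertia_trivial C v P (inertia_trivial_cyclotomic m P ?_)
  intro h
  apply hv
  rw [Ideal.over_def P v.asIdeal, Ideal.mem_comap, map_natCast]
  exact h

/-- **Cyclotomic formula ⇒ congruence**: in `C = E(ζ_m)`, the Artin symbol of an ideal prime to
`m` depends only on its absolute norm modulo `m`. -/
theorem artinI_cyclotomic_congr (𝔞 𝔟 : Ideal (𝓞 E)) (h𝔞 : 𝔞 ≠ ⊥) (h𝔟 : 𝔟 ≠ ⊥)
    (ha : 𝔞 ⊔ Ideal.span {(m : 𝓞 E)} = ⊤) (hb : 𝔟 ⊔ Ideal.span {(m : 𝓞 E)} = ⊤)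
    (hN : Ideal.absNorm 𝔞 ≡ Ideal.absNorm 𝔟 [MOD m]) : artinI E C 𝔞 = artinI E C 𝔟 := by
  obtain ⟨ζ, hζ⟩ := IsCyclotomicExtension.exists_isPrimitiveRoot E C (Set.mem_singleton m)
    (NeZero.ne m)
  refine eq_of_apply_primitiveRoot m hζ _ _ ?_
  set z : 𝓞 C := hζ.toInteger with hz
  have hzm : z ^ m = 1 := by
    apply RingOfIntegers.ext
    show (z : C) ^ m = 1
    exact hζ.pow_eq_one
  have h1 := artinI_smul_of_pow_eq_one C hzm 𝔞 h𝔞 fun v hv =>
    ⟨isUnramifiedIn_cyclotomic m v (natCast_not_mem_of_dvd m ha v hv),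
      natCast_not_mem_of_dvd m ha v hv⟩
  have h2 := artinI_smul_of_pow_eq_one C hzm 𝔟 h𝔟 fun v hv =>
    ⟨isUnramifiedIn_cyclotomic m v (natCast_not_mem_of_dvd m hb v hv),
      natCast_not_mem_of_dvd m hb v hv⟩
  have h3 : z ^ Ideal.absNorm 𝔞 = z ^ Ideal.absNorm 𝔟 := by
    rw [pow_eq_pow_mod _ hzm, pow_eq_pow_mod (Ideal.absNorm 𝔟) hzm]
    congr 1
  have h4 : artinI E C 𝔞 • z = artinI E C 𝔟 • z := by rw [h1, h2, h3]
  exact congrArg (fun x : 𝓞 C => (x : C)) h4

end cyc

/-- **[ART-C], (C1)** For `E ≤ M ≤ C = E(ζ_m)`, every Artin map of `M / E` away from `m` takes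
the same value on two nonzero ideals prime to `m` with the same absolute norm modulo `m`. -/
theorem artinMap_congr_of_absNorm (E M C : Type) [Field E] [NumberField E] [Field M]
    [NumberField M] [Field C] [NumberField C] [Algebra E M] [Algebra M C] [Algebra E C]
    [IsScalarTower E M C] (m : ℕ) [NeZero m] [IsCyclotomicExtension {m} E C] [IsGalois E M]
    (Φ : Ideal (𝓞 E) → (M ≃ₐ[E] M)) (hΦ : Asm.IsArtinMap E M (Ideal.span {(m : 𝓞 E)}) Φ)
    (𝔞 𝔟 : Ideal (𝓞 E)) (h𝔞 : 𝔞 ≠ ⊥) (h𝔟 : 𝔟 ≠ ⊥)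
    (ha : 𝔞 ⊔ Ideal.span {(m : 𝓞 E)} = ⊤) (hb : 𝔟 ⊔ Ideal.span {(m : 𝓞 E)} = ⊤)
    (hN : Ideal.absNorm 𝔞 ≡ Ideal.absNorm 𝔟 [MOD m]) : Φ 𝔞 = Φ 𝔟 := by
  have hgal : IsGalois E C := IsCyclotomicExtension.isGalois {m} E C
  have hcC : IsMulCommutative Gal(C/E) :=
    (IsCyclotomicExtension.isAbelianGalois {m} E C).toIsMulCommutative
  have hcM : IsMulCommutative Gal(M/E) := ⟨⟨comm_of_cyclotomic E M C m⟩⟩
  have hun := unramifiedOutside_of_cyclotomic E M C m
  have hres : ∀ 𝔠 : Ideal (𝓞 E), 𝔠 ≠ ⊥ → 𝔠 ⊔ Ideal.span {(m : 𝓞 E)} = ⊤ →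
      Φ 𝔠 = AlgEquiv.restrictNormalHom M (artinI E C 𝔠) := by
    intro 𝔠 h𝔠 hc
    rw [eq_artinI_of_isArtinMap hun hΦ 𝔠 h𝔠 hc, restrict_artinI 𝔠 h𝔠]
    intro v hv
    have hm := natCast_not_mem_of_dvd m hc v hv
    exact ⟨isUnramifiedIn_cyclotomic m v hm, isUnramifiedIn_of_cyclotomic C m v hm⟩
  rw [hres 𝔞 h𝔞 ha, hres 𝔟 h𝔟 hb, artinI_cyclotomic_congr m 𝔞 𝔟 h𝔞 h𝔟 ha hb hN]

section positivity

open NumberField.InfinitePlace NumberField.ComplexEmbedding

variable {E : Type*} [Field E] [NumberField E]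

/-- The norm of an element of a totally complex number field is nonnegative. -/
theorem norm_nonneg_of_isTotallyComplex [IsTotallyComplex E] (x : E) :
    0 ≤ Algebra.norm ℚ x := by
  classical
  have h := Algebra.norm_eq_prod_embeddings ℚ ℂ x
  rw [← Fintype.prod_equiv (RingHom.equivRatAlgHom E ℂ) (fun f => f x)
    (fun φ => φ x) (fun _ => by simp [RingHom.equivRatAlgHom_apply]),
    ← Finset.prod_fiberwise Finset.univ InfinitePlace.mk (fun φ => φ x)] at h
  have key : ∀ w : InfinitePlace E,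
      ∏ φ ∈ ({φ | InfinitePlace.mk φ = w} : Finset (E →+* ℂ)), φ x =
        ((Complex.normSq (w.embedding x) : ℝ) : ℂ) := by
    intro w
    have hfib : ({φ | InfinitePlace.mk φ = w} : Finset (E →+* ℂ)) =
        {w.embedding, conjugate w.embedding} := by
      ext φ
      simp only [Finset.mem_filter, Finset.mem_univ, true_and, Finset.mem_insert,
        Finset.mem_singleton]
      constructor
      · intro hφ
        have := (mk_eq_iff (φ := w.embedding) (ψ := φ)).mp (by rw [mk_embedding, hφ])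
        rcases this with h1 | h1
        · exact Or.inl h1.symm
        · exact Or.inr h1.symm
      · rintro (rfl | rfl)
        · exact mk_embedding w
        · rw [mk_conjugate_eq, mk_embedding]
    have hne : w.embedding ≠ conjugate w.embedding := fun hh =>
      IsTotallyComplex.complexEmbedding_not_isReal w.embedding
        (ComplexEmbedding.isReal_iff.mpr hh.symm)
    rw [hfib, Finset.prod_pair hne, conjugate_coe_eq, Complex.mul_conj]
  rw [Finset.prod_congr rfl fun w _ => key w] at h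
  have h2 : ((Algebra.norm ℚ x : ℚ) : ℝ) = ∏ w : InfinitePlace E,
      Complex.normSq (w.embedding x) := by
    have : ((Algebra.norm ℚ x : ℚ) : ℂ) = ((∏ w : InfinitePlace E,
      Complex.normSq (w.embedding x) : ℝ) : ℂ) := by
      rw [Complex.ofReal_prod, ← h]
      simp
    exact_mod_cast this
  have h3 : (0 : ℝ) ≤ ((Algebra.norm ℚ x : ℚ) : ℝ) := by
    rw [h2]
    exact Finset.prod_nonneg fun w _ => Complex.normSq_nonneg _
  exact_mod_cast h3

/-- The norm of a nonzero integer of a totally complex number field is positive. -/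
theorem intNorm_pos_of_isTotallyComplex [IsTotallyComplex E] (a : 𝓞 E) (ha : a ≠ 0) :
    0 < Algebra.norm ℤ a := by
  have h1 : 0 ≤ Algebra.norm ℚ (a : E) := norm_nonneg_of_isTotallyComplex (a : E)
  have h2 : ((Algebra.norm ℤ a : ℤ) : ℚ) = Algebra.norm ℚ (a : E) := Algebra.coe_norm_int a
  have h3 : Algebra.norm ℤ a ≠ 0 := Algebra.norm_ne_zero_iff.mpr ha
  have h4 : (0 : ℤ) ≤ Algebra.norm ℤ a := by
    have : (0 : ℚ) ≤ ((Algebra.norm ℤ a : ℤ) : ℚ) := by rw [h2]; exact h1
    exact_mod_cast this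
  omega

end positivity

section congr

variable {E : Type*} [Field E] [NumberField E]

/-- Congruent integers of `E` modulo `m` have congruent norms modulo `m`. -/
theorem intNorm_modEq_of_sub_mem (m : ℕ) (a b : 𝓞 E)
    (h : a - b ∈ Ideal.span {(m : 𝓞 E)}) :
    Algebra.norm ℤ a ≡ Algebra.norm ℤ b [ZMOD m] := by
  classical
  obtain ⟨c, hc⟩ := Ideal.mem_span_singleton'.mp h
  have ha : a = b + c * (m : 𝓞 E) := by rw [hc]; ring
  let B := RingOfIntegers.basis E
  rw [Algebra.norm_eq_matrix_det B a, Algebra.norm_eq_matrix_det B b,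
    ← ZMod.intCast_eq_intCast_iff]
  have h1 : Algebra.leftMulMatrix B a =
      Algebra.leftMulMatrix B b + Algebra.leftMulMatrix B c *
        (m : Matrix (Module.Free.ChooseBasisIndex ℤ (𝓞 E))
          (Module.Free.ChooseBasisIndex ℤ (𝓞 E)) ℤ) := by
    rw [ha, map_add, map_mul, map_natCast]
  rw [h1]
  have h2 : ∀ X : Matrix (Module.Free.ChooseBasisIndex ℤ (𝓞 E))
      (Module.Free.ChooseBasisIndex ℤ (𝓞 E)) ℤ, ((X.det : ℤ) : ZMod m) =
      ((Int.castRingHom (ZMod m)).mapMatrix X).det := fun X =>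
    RingHom.map_det (Int.castRingHom (ZMod m)) X
  rw [h2, h2, map_add, map_mul, map_natCast]
  simp
end congr

section principal

variable {E : Type*} [Field E] [NumberField E]

/-- If `a ≡ b mod m` and `(a)` is prime to `(m)`, then `(b)` is prime to `(m)`. -/
theorem span_sup_eq_top_of_sub_mem (m : ℕ) (a b : 𝓞 E)
    (hab : a - b ∈ Ideal.span {(m : 𝓞 E)})
    (hcop : Ideal.span {a} ⊔ Ideal.span {(m : 𝓞 E)} = ⊤) :
    Ideal.span {b} ⊔ Ideal.span {(m : 𝓞 E)} = ⊤ := by
  rw [eq_top_iff, ← hcop]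
  refine sup_le ?_ le_sup_right
  rw [Ideal.span_singleton_le_iff_mem]
  have : a = b + (a - b) := by ring
  rw [this]
  exact Ideal.add_mem _ (Ideal.mem_sup_left (Ideal.mem_span_singleton_self b))
    (Ideal.mem_sup_right hab)

/-- For `E` totally complex and `a ≡ b mod m` nonzero: `N((a)) ≡ N((b)) mod m`. -/
theorem absNorm_span_modEq [IsTotallyComplex E] (m : ℕ) (a b : 𝓞 E) (ha : a ≠ 0) (hb : b ≠ 0)
    (hab : a - b ∈ Ideal.span {(m : 𝓞 E)}) :
    Ideal.absNorm (Ideal.span {a}) ≡ Ideal.absNorm (Ideal.span {b}) [MOD m] := by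
  rw [Ideal.absNorm_span_singleton, Ideal.absNorm_span_singleton, ← Int.natCast_modEq_iff,
    Int.natAbs_of_nonneg (intNorm_pos_of_isTotallyComplex a ha).le,
    Int.natAbs_of_nonneg (intNorm_pos_of_isTotallyComplex b hb).le]
  exact intNorm_modEq_of_sub_mem m a b hab

end principal

/-- **[ART-C], (C2)** For `E ≤ M ≤ C = E(ζ_m)`, `E` totally complex: every Artin map of `M / E`
away from `m` takes the same value on `(a)` and `(b)` if `a ≡ b mod m` are nonzero and prime to
`m`. -/
theorem artinMap_span_congr (E M C : Type) [Field E] [NumberField E] [Field M]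
    [NumberField M] [Field C] [NumberField C] [Algebra E M] [Algebra M C] [Algebra E C]
    [IsScalarTower E M C] (m : ℕ) [NeZero m] [IsCyclotomicExtension {m} E C] [IsGalois E M]
    (hE : IsTotallyComplex E)
    (Φ : Ideal (𝓞 E) → (M ≃ₐ[E] M)) (hΦ : Asm.IsArtinMap E M (Ideal.span {(m : 𝓞 E)}) Φ)
    (a b : 𝓞 E) (ha : a ≠ 0) (hb : b ≠ 0) (hab : a - b ∈ Ideal.span {(m : 𝓞 E)})
    (hcop : Ideal.span {a} ⊔ Ideal.span {(m : 𝓞 E)} = ⊤) :
    Φ (Ideal.span {a}) = Φ (Ideal.span {b}) :=
  artinMap_congr_of_absNorm E M C m Φ hΦ _ _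
    (by rwa [Ne, Ideal.span_singleton_eq_bot]) (by rwa [Ne, Ideal.span_singleton_eq_bot])
    hcop (span_sup_eq_top_of_sub_mem m a b hab hcop) (absNorm_span_modEq m a b ha hb hab)

end Fermat.Agent.S14x.Art.H28
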