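import Fermat.Agent.S14x.Art.H28_AsmArt

/-!
# S14 / [ART-U]: subextensions of cyclotomic extensions are unramified outside `m` (helper28)

`E ≤ M ≤ C = E(ζ_m)` number fields.

* `eq_one_of_pow_eq_one_of_sub_mem` : an `m`-th root of unity `≡ 1` modulo a prime not containing
  `m` is `1`;
* `eq_one_of_apply_primitiveRoot`   : `σ ∈ Gal(C/E)` with `σ ζ = ζ` is `1`;
* `inertia_trivial_cyclotomic`      : the inertia groups of `C / E` at the primes not containing
  `m` are trivial;
* `inertia_trivial_of_tower`        : descent of unramifiedness to a Galois subextension;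
* `unramifiedOutside_of_cyclotomic` : **`Asm.UnramifiedOutside E M (span {m})`**;
* `isUnramifiedIn_of_cyclotomic`    : the same in Mathlib's vocabulary;
* `comm_of_cyclotomic`              : `Gal(M/E)` is commutative.
-/

set_option autoImplicit false
set_option linter.unusedSectionVars false
set_option linter.style.haveILetI false

open NumberField IsDedekindDomain
open scoped Pointwise nonZeroDivisors IsMulCommutative

noncomputable section

namespace Fermat.Agent.S14x.Art.H28

open Fermat.Agent.S14x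

/-- A root of unity `η` of order dividing `m` which is `≡ 1` modulo a prime `P` not containing
`m` is `1`. -/
theorem eq_one_of_pow_eq_one_of_sub_mem {S : Type*} [CommRing S] [IsDomain S] (P : Ideal S)
    {η : S} {m : ℕ} (hη : η ^ m = 1) (hP : η - 1 ∈ P) (hm : (m : S) ∉ P) : η = 1 := by
  have h1 : (η - 1) * ∑ i ∈ Finset.range m, η ^ i = 0 := by
    rw [mul_geom_sum, hη, sub_self]
  rcases mul_eq_zero.mp h1 with h | h
  · exact sub_eq_zero.mp h
  · exfalso
    apply hm
    have h2 : (m : S) = ∑ i ∈ Finset.range m, η ^ i - ∑ i ∈ Finset.range m, (η ^ i - 1) := by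
      rw [Finset.sum_sub_distrib]
      simp
    rw [h2, h, zero_sub]
    refine P.neg_mem (P.sum_mem fun i _ => ?_)
    obtain ⟨c, hc⟩ := sub_one_dvd_pow_sub_one η i
    rw [hc]
    exact P.mul_mem_right _ hP

section cyc

variable {E C : Type*} [Field E] [NumberField E] [Field C] [NumberField C] [Algebra E C]
  (m : ℕ) [NeZero m] [IsCyclotomicExtension {m} E C]

/-- An automorphism of `C = E(ζ_m)` over `E` fixing a primitive `m`-th root of unity is trivial. -/
theorem eq_one_of_apply_primitiveRoot {ζ : C} (hζ : IsPrimitiveRoot ζ m) (σ : Gal(C/E))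
    (h : σ ζ = ζ) : σ = 1 := by
  apply hζ.autToPow_injective E
  rw [map_one]
  have hspec := hζ.autToPow_spec E σ
  have hord : orderOf ζ = m := hζ.eq_orderOf.symm
  rw [h] at hspec
  have h1 : ζ ^ ((hζ.autToPow E σ : ZMod m)).val = ζ ^ (1 % m) := by
    rw [hspec]
    conv_rhs => rw [← hord, pow_mod_orderOf, pow_one]
  have h1' := hζ.pow_inj (ZMod.val_lt _) (Nat.mod_lt 1 (NeZero.pos m)) h1
  have h2 : ((hζ.autToPow E σ : (ZMod m)ˣ) : ZMod m) = 1 := by
    apply ZMod.val_injective m
    rw [h1', ZMod.val_one_eq_one_mod]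
  exact Units.ext h2

/-- Two automorphisms of `C = E(ζ_m)` over `E` which agree on a primitive `m`-th root of unity
are equal. -/
theorem eq_of_apply_primitiveRoot {ζ : C} (hζ : IsPrimitiveRoot ζ m) (σ τ : Gal(C/E))
    (h : σ ζ = τ ζ) : σ = τ := by
  have h1 : τ⁻¹ * σ = 1 := by
    apply eq_one_of_apply_primitiveRoot m hζ
    rw [AlgEquiv.mul_apply, h]
    exact τ.symm_apply_apply ζ
  calc σ = τ * (τ⁻¹ * σ) := by group
    _ = τ := by rw [h1, mul_one]

/-- **Inertia is trivial in a cyclotomic extension at the primes not containing `m`.** -/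
theorem inertia_trivial_cyclotomic (P' : Ideal (𝓞 C)) [P'.IsPrime] (hm : (m : 𝓞 C) ∉ P')
    (σ : Gal(C/E)) (hσ : ∀ x : 𝓞 C, σ • x - x ∈ P') : σ = 1 := by
  obtain ⟨ζ, hζ⟩ := IsCyclotomicExtension.exists_isPrimitiveRoot E C (Set.mem_singleton m)
    (NeZero.ne m)
  refine eq_one_of_apply_primitiveRoot m hζ σ ?_
  set z : 𝓞 C := hζ.toInteger with hz
  have hzm : z ^ m = 1 := by
    apply RingOfIntegers.ext
    show (z : C) ^ m = 1
    exact hζ.pow_eq_one
  have hσz : (σ • z) ^ m = 1 := by
    rw [← smul_pow', hzm, smul_one]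
  set η : 𝓞 C := (σ • z) * z ^ (m - 1) with hη
  have hm1 : m - 1 + 1 = m := Nat.sub_add_cancel (NeZero.pos m)
  have hzz : z ^ (m - 1) * z = 1 := by rw [← pow_succ, hm1, hzm]
  have hηm : η ^ m = 1 := by
    rw [hη, mul_pow, hσz, one_mul, ← pow_mul, mul_comm, pow_mul, hzm, one_pow]
  have hηP : η - 1 ∈ P' := by
    have : η - 1 = (σ • z - z) * z ^ (m - 1) := by
      rw [hη, sub_mul, mul_comm z, hzz]
    rw [this]
    exact P'.mul_mem_right _ (hσ z)
  have h1 := eq_one_of_pow_eq_one_of_sub_mem P' hηm hηP hm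
  have h2 : σ • z = z := by
    have : σ • z = η * z := by rw [hη, mul_assoc, hzz, mul_one]
    rw [this, h1, one_mul]
  exact congrArg (fun x : 𝓞 C => (x : C)) h2

end cyc

section tower

variable {E M C : Type*} [Field E] [NumberField E] [Field M] [NumberField M] [Field C]
  [NumberField C] [Algebra E M] [Algebra M C] [Algebra E C] [IsScalarTower E M C]

/-- Unramified primes stay unramified in subextensions (inertia form), for a Galois
subextension `M / E` of an extension `C / E`. -/
theorem inertia_trivial_of_tower [IsGalois E M] (v : HeightOneSpectrum (𝓞 E))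
    (P : Ideal (𝓞 M)) [P.IsPrime] [P.LiesOver v.asIdeal]
    (P' : Ideal (𝓞 C)) [P'.IsPrime] [P'.LiesOver P] (hP' : Algebra.IsUnramifiedAt (𝓞 E) P')
    (σ : Gal(M/E)) (hσ : ∀ x : 𝓞 M, σ • x - x ∈ P) : σ = 1 := by
  have hun : Algebra.IsUnramifiedAt (𝓞 E) P := Algebra.IsUnramifiedAt.of_liesOver (𝓞 E) P P'
  have he : P.ramificationIdx (𝓞 E) = 1 := Ideal.ramificationIdx_eq_one_of_isUnramifiedAt
  have hcard := Ideal.card_inertia_eq_ramificationIdxIn (G := Gal(M/E)) v.asIdeal P
  rw [Ideal.ramificationIdxIn_eq_ramificationIdx v.asIdeal P Gal(M/E), he] at hcard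
  have hbot : P.inertia Gal(M/E) = ⊥ := Subgroup.card_eq_one.mp hcard
  have hmem : σ ∈ P.inertia Gal(M/E) := hσ
  rw [hbot, Subgroup.mem_bot] at hmem
  exact hmem

end tower

section tower2

/-- A prime `v` of `E` not containing `m`, a prime `P` of `M` above `v`: the inertia group of `P`
in `Gal(M/E)` is trivial. -/
theorem inertia_trivial_of_cyclotomic {E M : Type*} (C : Type*) [Field E] [NumberField E]
    [Field M] [NumberField M] [Field C] [NumberField C] [Algebra E M] [Algebra M C] [Algebra E C]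
    [IsScalarTower E M C] (m : ℕ) [NeZero m] [IsCyclotomicExtension {m} E C] [IsGalois E M]
    (v : HeightOneSpectrum (𝓞 E))
    (hv : (m : 𝓞 E) ∉ v.asIdeal) (P : Ideal (𝓞 M)) [P.IsPrime] [P.LiesOver v.asIdeal]
    (σ : Gal(M/E)) (hσ : ∀ x : 𝓞 M, σ • x - x ∈ P) : σ = 1 := by
  have hgal : IsGalois E C := IsCyclotomicExtension.isGalois {m} E C
  obtain ⟨⟨P', hP'1, hP'2⟩⟩ := (inferInstance : Nonempty (P.primesOver (𝓞 C)))
  have hlo : P'.LiesOver v.asIdeal := Ideal.LiesOver.trans P' P v.asIdeal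
  have hm' : (m : 𝓞 C) ∉ P' := by
    intro h
    apply hv
    rw [Ideal.over_def P' v.asIdeal, Ideal.mem_comap, map_natCast]
    exact h
  have hun : Algebra.IsUnramifiedAt (𝓞 E) P' :=
    isUnramifiedAt_of_inertia_trivial C v P' (inertia_trivial_cyclotomic m P' hm')
  exact inertia_trivial_of_tower v P P' hun σ hσ

/-- The same in Mathlib's vocabulary. -/
theorem isUnramifiedIn_of_cyclotomic {E M : Type*} (C : Type*) [Field E] [NumberField E]
    [Field M] [NumberField M] [Field C] [NumberField C] [Algebra E M] [Algebra M C] [Algebra E C]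
    [IsScalarTower E M C] (m : ℕ) [NeZero m] [IsCyclotomicExtension {m} E C] [IsGalois E M]
    (v : HeightOneSpectrum (𝓞 E))
    (hv : (m : 𝓞 E) ∉ v.asIdeal) : Algebra.IsUnramifiedIn (𝓞 M) v.asIdeal := by
  intro P hP hlo
  exact isUnramifiedAt_of_inertia_trivial M v P (inertia_trivial_of_cyclotomic C m v hv P)

/-- `Gal(M/E)` is commutative for `E ≤ M ≤ E(ζ_m)`. -/
theorem comm_of_cyclotomic (E M C : Type*) [Field E] [NumberField E]
    [Field M] [NumberField M] [Field C] [NumberField C] [Algebra E M] [Algebra M C] [Algebra E C]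
    [IsScalarTower E M C] (m : ℕ) [NeZero m] [IsCyclotomicExtension {m} E C]
    (σ τ : Gal(M/E)) : σ * τ = τ * σ := by
  have h1 : IsAbelianGalois E C := IsCyclotomicExtension.isAbelianGalois {m} E C
  have h2 : IsAbelianGalois E M := IsAbelianGalois.tower_bot E M C
  exact mul_comm' σ τ

/-- Coprimality to `(m)` of a prime means that it does not contain `m`. -/
theorem natCast_not_mem_of_sup_eq_top {E : Type*} [Field E] [NumberField E] (m : ℕ)
    {𝔭 : Ideal (𝓞 E)} (h𝔭 : 𝔭.IsPrime)
    (h : 𝔭 ⊔ Ideal.span {(m : 𝓞 E)} = ⊤) : (m : 𝓞 E) ∉ 𝔭 := by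
  intro hm
  apply h𝔭.ne_top
  rw [← h, eq_comm, sup_eq_left, Ideal.span_singleton_le_iff_mem]
  exact hm

end tower2


/-- **[ART-U]** A subextension `M / E` of the cyclotomic extension `C = E(ζ_m)` is unramified
outside `m`. -/
theorem unramifiedOutside_of_cyclotomic (E M C : Type) [Field E] [NumberField E] [Field M]
    [NumberField M] [Field C] [NumberField C] [Algebra E M] [Algebra M C] [Algebra E C]
    [IsScalarTower E M C] (m : ℕ) [NeZero m] [IsCyclotomicExtension {m} E C] [IsGalois E M] :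
    Asm.UnramifiedOutside E M (Ideal.span {(m : 𝓞 E)}) := by
  intro 𝔭 h𝔭 h0 hcop P hP hP0 hle σ hσ
  let v : HeightOneSpectrum (𝓞 E) := ⟨𝔭, h𝔭, h0⟩
  have hmax : 𝔭.IsMaximal := Ring.DimensionLEOne.maximalOfPrime h0 h𝔭
  have hPu : (P.under (𝓞 E)).IsPrime := inferInstance
  have hlo : P.LiesOver v.asIdeal := ⟨(hmax.eq_of_le hPu.ne_top hle)⟩
  exact inertia_trivial_of_cyclotomic C m v
    (natCast_not_mem_of_sup_eq_top m h𝔭 hcop) P σ hσ

end Fermat.Agent.S14x.Art.H28
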