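import Mathlib

/-!
# S14 / [ART]: Frobenius elements of an abelian extension of number fields (helper28)

`K`, `L` number fields, `L / K` Galois with group `G = Gal(L/K)`.

* `frob_unique`          : the Frobenius at an unramified prime `Q` of `L` is unique;
* `primeOver v`          : a chosen prime of `L` above the prime `v` of `K`;
* `frobAt K L v`         : the Frobenius of `v` (`1` if `v` ramifies in `L`);
* `frobAt_spec`          : for `L / K` abelian and `v` unramified, `frobAt K L v` is a Frobenius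
                           at EVERY prime `Q` above `v`;
* `frobAt_pow_inertiaDeg`, `inertiaDeg_le_of_frobAt_pow_eq_one`, `orderOf_frobAt`.
-/

set_option autoImplicit false
set_option linter.unusedSectionVars false
set_option linter.style.haveILetI false

open NumberField IsDedekindDomain
open scoped Pointwise

noncomputable section

namespace Fermat.Agent.S14x.Art.H28

variable (K L : Type*) [Field K] [NumberField K] [Field L] [NumberField L] [Algebra K L]
  [IsGalois K L]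

/-- The action of `Gal(L/K)` on `𝓞 L` is faithful. -/
theorem faithful_gal : FaithfulSMul Gal(L/K) (𝓞 L) :=
  (inferInstance : IsGaloisGroup Gal(L/K) (𝓞 K) (𝓞 L)).faithful

variable {K L}

/-- **(F1)** Uniqueness of the Frobenius at an unramified prime. -/
theorem frob_unique (Q : Ideal (𝓞 L)) [Q.IsPrime] [Algebra.IsUnramifiedAt (𝓞 K) Q]
    {σ τ : Gal(L/K)} (hσ : IsArithFrobAt (𝓞 K) σ Q) (hτ : IsArithFrobAt (𝓞 K) τ Q) : σ = τ := by
  have h := AlgHom.IsArithFrobAt.eq_of_isUnramifiedAt hσ hτ Q.primeCompl_le_nonZeroDivisors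
  have := faithful_gal K L
  apply FaithfulSMul.eq_of_smul_eq_smul (α := 𝓞 L)
  intro x
  exact DFunLike.congr_fun h x

variable (L) in
/-- There is a prime of `L` above every prime of `K`. -/
theorem exists_primeOver (v : HeightOneSpectrum (𝓞 K)) :
    ∃ Q : Ideal (𝓞 L), Q.IsPrime ∧ Q.LiesOver v.asIdeal := by
  obtain ⟨⟨Q, hQ⟩⟩ := (inferInstance : Nonempty (v.asIdeal.primesOver (𝓞 L)))
  exact ⟨Q, hQ.1, hQ.2⟩

variable (L) in
/-- A chosen prime of `L` above the prime `v` of `K`. -/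
def primeOver (v : HeightOneSpectrum (𝓞 K)) : Ideal (𝓞 L) :=
  (exists_primeOver L v).choose

instance primeOver_isPrime (v : HeightOneSpectrum (𝓞 K)) : (primeOver L v).IsPrime :=
  (exists_primeOver L v).choose_spec.1

instance primeOver_liesOver (v : HeightOneSpectrum (𝓞 K)) :
    (primeOver L v).LiesOver v.asIdeal :=
  (exists_primeOver L v).choose_spec.2

theorem ne_bot_of_liesOver (v : HeightOneSpectrum (𝓞 K)) (Q : Ideal (𝓞 L))
    [Q.LiesOver v.asIdeal] : Q ≠ ⊥ :=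
  Ideal.ne_bot_of_liesOver_of_ne_bot v.ne_bot Q

theorem finite_quotient_of_liesOver (v : HeightOneSpectrum (𝓞 K)) (Q : Ideal (𝓞 L))
    [Q.LiesOver v.asIdeal] : Finite (𝓞 L ⧸ Q) :=
  Ideal.finiteQuotientOfFreeOfNeBot Q (ne_bot_of_liesOver v Q)

instance primeOver_finite (v : HeightOneSpectrum (𝓞 K)) : Finite (𝓞 L ⧸ primeOver L v) :=
  finite_quotient_of_liesOver v _

variable (K L) in
/-- **(F2)** The Frobenius of the prime `v` of `K` in `L / K` (`1` if `v` ramifies in `L`). For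
`L / K` abelian it is a Frobenius at every prime above `v`, see `frobAt_spec`. -/
def frobAt (v : HeightOneSpectrum (𝓞 K)) : Gal(L/K) :=
  open Classical in
  if Algebra.IsUnramifiedIn (𝓞 L) v.asIdeal then arithFrobAt (𝓞 K) Gal(L/K) (primeOver L v) else 1

theorem frobAt_of_ramified {v : HeightOneSpectrum (𝓞 K)}
    (hv : ¬ Algebra.IsUnramifiedIn (𝓞 L) v.asIdeal) : frobAt K L v = 1 := by
  rw [frobAt, if_neg hv]

theorem frobAt_of_unramified {v : HeightOneSpectrum (𝓞 K)}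
    (hv : Algebra.IsUnramifiedIn (𝓞 L) v.asIdeal) :
    frobAt K L v = arithFrobAt (𝓞 K) Gal(L/K) (primeOver L v) := by
  rw [frobAt, if_pos hv]

/-- Two primes of `L` above the same prime of `K` are conjugate under `Gal(L/K)`. -/
theorem exists_smul_eq_of_liesOver (v : HeightOneSpectrum (𝓞 K)) (Q Q' : Ideal (𝓞 L))
    [Q.IsPrime] [Q'.IsPrime] [hQ : Q.LiesOver v.asIdeal] [hQ' : Q'.LiesOver v.asIdeal] :
    ∃ τ : Gal(L/K), Q' = τ • Q :=
  Algebra.IsInvariant.exists_smul_of_under_eq (𝓞 K) (𝓞 L) Gal(L/K) Q Q'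
    (hQ.over.symm.trans hQ'.over)

/-- Unramifiedness at a prime above an unramified prime. -/
theorem isUnramifiedAt_of_liesOver {v : HeightOneSpectrum (𝓞 K)}
    (hv : Algebra.IsUnramifiedIn (𝓞 L) v.asIdeal) (Q : Ideal (𝓞 L)) [hQ : Q.IsPrime]
    [hQv : Q.LiesOver v.asIdeal] : Algebra.IsUnramifiedAt (𝓞 K) Q :=
  hv Q hQ hQv

/-- At an unramified prime the decomposition group has order `f`. -/
theorem card_stabilizer_eq_inertiaDeg (v : HeightOneSpectrum (𝓞 K)) (Q : Ideal (𝓞 L))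
    [Q.IsPrime] [Q.LiesOver v.asIdeal] [Algebra.IsUnramifiedAt (𝓞 K) Q] :
    Nat.card (MulAction.stabilizer Gal(L/K) Q) = Q.inertiaDeg (𝓞 K) := by
  rw [Ideal.card_stabilizer_eq_card_inertia_mul_finrank v.asIdeal Q,
    Ideal.card_inertia_eq_ramificationIdxIn v.asIdeal Q,
    Ideal.ramificationIdxIn_eq_ramificationIdx v.asIdeal Q Gal(L/K),
    Ideal.ramificationIdx_eq_one_of_isUnramifiedAt, one_mul]

/-- **(F3a)** A Frobenius at an unramified prime `Q` has order dividing `f(Q)`. -/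
theorem frob_pow_inertiaDeg (v : HeightOneSpectrum (𝓞 K)) (Q : Ideal (𝓞 L))
    [Q.IsPrime] [Q.LiesOver v.asIdeal] [Algebra.IsUnramifiedAt (𝓞 K) Q] {σ : Gal(L/K)}
    (hσ : IsArithFrobAt (𝓞 K) σ Q) : σ ^ Q.inertiaDeg (𝓞 K) = 1 := by
  have hmem : σ ∈ MulAction.stabilizer Gal(L/K) Q := hσ.mem_stabilizer
  have h := pow_card_eq_one' (G := MulAction.stabilizer Gal(L/K) Q) (x := ⟨σ, hmem⟩)
  rw [card_stabilizer_eq_inertiaDeg v Q] at h
  exact congrArg Subtype.val h

/-- Powers of a Frobenius act as powers of the `q`-power map on the residue field. -/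
theorem mk_frob_pow_smul (Q : Ideal (𝓞 L)) [Q.IsPrime] {σ : Gal(L/K)}
    (hσ : IsArithFrobAt (𝓞 K) σ Q) (k : ℕ) (x : 𝓞 L) :
    Ideal.Quotient.mk Q ((σ ^ k) • x) =
      Ideal.Quotient.mk Q x ^ (Nat.card (𝓞 K ⧸ Q.under (𝓞 K)) ^ k) := by
  induction k generalizing x with
  | zero => simp
  | succ k ih =>
    rw [pow_succ, mul_smul, ih (σ • x), pow_succ, pow_mul']
    congr 1
    have := hσ.mk_apply x
    simpa using this

/-- **(F3b)** If the `k`-th power (`k ≠ 0`) of a Frobenius at `Q` is trivial then `f(Q) ≤ k`. -/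
theorem inertiaDeg_le_of_frob_pow_eq_one (v : HeightOneSpectrum (𝓞 K)) (Q : Ideal (𝓞 L))
    [Q.IsPrime] [Q.LiesOver v.asIdeal] {σ : Gal(L/K)}
    (hσ : IsArithFrobAt (𝓞 K) σ Q) {k : ℕ} (hk : k ≠ 0) (h1 : σ ^ k = 1) :
    Q.inertiaDeg (𝓞 K) ≤ k := by
  classical
  have hQmax : Q.IsMaximal := Ring.DimensionLEOne.maximalOfPrime (ne_bot_of_liesOver v Q) ‹_›
  letI : Field (𝓞 L ⧸ Q) := Ideal.Quotient.field Q
  letI : Field (𝓞 K ⧸ v.asIdeal) := Ideal.Quotient.field v.asIdeal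
  have hfinQ : Finite (𝓞 L ⧸ Q) := finite_quotient_of_liesOver v Q
  have hfinv : Finite (𝓞 K ⧸ v.asIdeal) := inferInstance
  have hunder : Q.under (𝓞 K) = v.asIdeal := (Ideal.over_def Q v.asIdeal).symm
  set q := Nat.card (𝓞 K ⧸ v.asIdeal) with hq
  have hq1 : 1 < q := Finite.one_lt_card
  -- every element of the residue field is a root of `X ^ (q ^ k) - X`
  have hroot : ∀ y : 𝓞 L ⧸ Q, y ^ (q ^ k) = y := by
    intro y
    obtain ⟨x, rfl⟩ := Ideal.Quotient.mk_surjective y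
    have := mk_frob_pow_smul Q hσ k x
    rw [h1, one_smul, hunder] at this
    exact this.symm
  have hqk : 1 < q ^ k := Nat.one_lt_pow hk hq1
  letI := Fintype.ofFinite (𝓞 L ⧸ Q)
  have hcard : Fintype.card (𝓞 L ⧸ Q) ≤ q ^ k := by
    have hsub : (Finset.univ : Finset (𝓞 L ⧸ Q)).val ⊆
        (Polynomial.X ^ (q ^ k) - Polynomial.X : Polynomial (𝓞 L ⧸ Q)).roots := by
      intro y _
      rw [Polynomial.mem_roots']
      refine ⟨?_, ?_⟩
      · intro h0
        have := FiniteField.X_pow_card_sub_X_natDegree_eq (𝓞 L ⧸ Q) hqk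
        rw [h0, Polynomial.natDegree_zero] at this
        omega
      · simp [hroot y]
    have := Polynomial.card_le_degree_of_subset_roots hsub
    rwa [FiniteField.X_pow_card_sub_X_natDegree_eq (𝓞 L ⧸ Q) hqk, Finset.card_univ] at this
  have hcard' : Nat.card (𝓞 L ⧸ Q) = q ^ Q.inertiaDeg (𝓞 K) := by
    rw [Ideal.inertiaDeg_eq_of_isMaximal v.asIdeal Q]
    exact Module.natCard_eq_pow_finrank
  rw [← Nat.card_eq_fintype_card, hcard'] at hcard
  exact (Nat.pow_le_pow_iff_right hq1).mp hcard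

/-- **(F3)** A Frobenius at an unramified prime `Q` has order exactly `f(Q)`. -/
theorem orderOf_frob (v : HeightOneSpectrum (𝓞 K)) (Q : Ideal (𝓞 L))
    [Q.IsPrime] [Q.LiesOver v.asIdeal] [Algebra.IsUnramifiedAt (𝓞 K) Q] {σ : Gal(L/K)}
    (hσ : IsArithFrobAt (𝓞 K) σ Q) : orderOf σ = Q.inertiaDeg (𝓞 K) := by
  have hpos : 0 < Q.inertiaDeg (𝓞 K) := Ideal.inertiaDeg_pos Q (𝓞 K)
  have h1 := frob_pow_inertiaDeg v Q hσ
  have hdvd : orderOf σ ∣ Q.inertiaDeg (𝓞 K) := orderOf_dvd_of_pow_eq_one h1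
  have hle := Nat.le_of_dvd hpos hdvd
  have ho : orderOf σ ≠ 0 := fun h0 => by
    rw [h0, zero_dvd_iff] at hdvd
    omega
  have hge := inertiaDeg_le_of_frob_pow_eq_one v Q hσ ho (pow_orderOf_eq_one σ)
  omega

/-- **(F7)** Cyclotomic formula: a Frobenius at `Q` raises every root of unity of order prime to
`Q` to the power `N(v)`. -/
theorem frob_smul_of_pow_eq_one (v : HeightOneSpectrum (𝓞 K)) (Q : Ideal (𝓞 L))
    [Q.IsPrime] [Q.LiesOver v.asIdeal] {σ : Gal(L/K)}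
    (hσ : IsArithFrobAt (𝓞 K) σ Q) {ζ : 𝓞 L} {m : ℕ} (hζ : ζ ^ m = 1)
    (hm : (m : 𝓞 L) ∉ Q) : σ • ζ = ζ ^ Nat.card (𝓞 K ⧸ v.asIdeal) := by
  have h := AlgHom.IsArithFrobAt.apply_of_pow_eq_one hσ hζ hm
  rw [← Ideal.over_def Q v.asIdeal] at h
  exact h

section abelian

variable [IsMulCommutative Gal(L/K)]

/-- **(F2)** For `L / K` abelian and `v` unramified in `L`, `frobAt K L v` is a Frobenius at every
prime `Q` of `L` above `v`. -/
theorem frobAt_spec {v : HeightOneSpectrum (𝓞 K)}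
    (hv : Algebra.IsUnramifiedIn (𝓞 L) v.asIdeal) (Q : Ideal (𝓞 L)) [Q.IsPrime]
    [Q.LiesOver v.asIdeal] : IsArithFrobAt (𝓞 K) (frobAt K L v) Q := by
  obtain ⟨τ, rfl⟩ := exists_smul_eq_of_liesOver v (primeOver L v) Q
  have h := (IsArithFrobAt.arithFrobAt (𝓞 K) Gal(L/K) (primeOver L v)).conj τ
  rw [frobAt_of_unramified hv]
  have hc : τ * arithFrobAt (𝓞 K) Gal(L/K) (primeOver L v) * τ⁻¹ =
      arithFrobAt (𝓞 K) Gal(L/K) (primeOver L v) := by
    rw [mul_comm' τ, mul_assoc, mul_inv_cancel, mul_one]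
  rwa [hc] at h

/-- **(F2')** Characterisation: for `L / K` abelian and `v` unramified, `frobAt K L v` is THE
element of `Gal(L/K)` which is a Frobenius at some prime above `v`. -/
theorem eq_frobAt {v : HeightOneSpectrum (𝓞 K)}
    (hv : Algebra.IsUnramifiedIn (𝓞 L) v.asIdeal) (Q : Ideal (𝓞 L)) [Q.IsPrime]
    [Q.LiesOver v.asIdeal] {σ : Gal(L/K)} (hσ : IsArithFrobAt (𝓞 K) σ Q) :
    σ = frobAt K L v := by
  have := isUnramifiedAt_of_liesOver hv Q
  exact frob_unique Q hσ (frobAt_spec hv Q)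

/-- **(F3)** `frobAt K L v ^ f = 1`. -/
theorem frobAt_pow_inertiaDeg {v : HeightOneSpectrum (𝓞 K)}
    (hv : Algebra.IsUnramifiedIn (𝓞 L) v.asIdeal) (Q : Ideal (𝓞 L)) [Q.IsPrime]
    [Q.LiesOver v.asIdeal] : frobAt K L v ^ Q.inertiaDeg (𝓞 K) = 1 := by
  have := isUnramifiedAt_of_liesOver hv Q
  exact frob_pow_inertiaDeg v Q (frobAt_spec hv Q)

/-- **(F3)** The order of `frobAt K L v` is the residue degree of any prime above `v`. -/
theorem orderOf_frobAt {v : HeightOneSpectrum (𝓞 K)}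
    (hv : Algebra.IsUnramifiedIn (𝓞 L) v.asIdeal) (Q : Ideal (𝓞 L)) [Q.IsPrime]
    [Q.LiesOver v.asIdeal] : orderOf (frobAt K L v) = Q.inertiaDeg (𝓞 K) := by
  have := isUnramifiedAt_of_liesOver hv Q
  exact orderOf_frob v Q (frobAt_spec hv Q)

/-- **(F3)** `frobAt K L v = 1` iff the residue degree of (any) prime above `v` is `1`. -/
theorem frobAt_eq_one_iff {v : HeightOneSpectrum (𝓞 K)}
    (hv : Algebra.IsUnramifiedIn (𝓞 L) v.asIdeal) (Q : Ideal (𝓞 L)) [Q.IsPrime]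
    [Q.LiesOver v.asIdeal] : frobAt K L v = 1 ↔ Q.inertiaDeg (𝓞 K) = 1 := by
  rw [← orderOf_frobAt hv Q, orderOf_eq_one_iff]

/-- **(F7)** Cyclotomic formula for `frobAt`. -/
theorem frobAt_smul_of_pow_eq_one {v : HeightOneSpectrum (𝓞 K)}
    (hv : Algebra.IsUnramifiedIn (𝓞 L) v.asIdeal) {ζ : 𝓞 L} {m : ℕ} (hζ : ζ ^ m = 1)
    (hm : (m : 𝓞 K) ∉ v.asIdeal) : frobAt K L v • ζ = ζ ^ Nat.card (𝓞 K ⧸ v.asIdeal) := by
  refine frob_smul_of_pow_eq_one v (primeOver L v) (frobAt_spec hv _) hζ ?_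
  intro hmem
  apply hm
  rw [Ideal.over_def (primeOver L v) v.asIdeal, Ideal.mem_comap]
  simpa using hmem

end abelian

end Fermat.Agent.S14x.Art.H28
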